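/-
S15 module M1 (COH): the abstract descent count (5), (5p), (5l-et), (5l-mu), (5b) of the S15 plan,
done entirely on the level of COCYCLES (no cohomology groups, no six-term sequences).

`Γ` = `G_ℚ`, `G` = the finite `Γ`-module `G''_r` (killed by `m = l^r`), `M = G^m ≤ G`.
-/
import Mathlib

set_option autoImplicit false

namespace Fermat.Agent.S15.Coh

variable {Γ : Type*} [Group Γ] [TopologicalSpace Γ] {m : ℕ}

/-- `c : Γ → ZMod m` is, on the subgroup `I`, a continuous `χ`-twisted 1-cocycle. -/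
def IsTwCocOn (χ : Γ →* ZMod m) (I : Subgroup Γ) (c : Γ → ZMod m) : Prop :=
  IsLocallyConstant (fun σ : I => c σ) ∧ ∀ σ ∈ I, ∀ τ ∈ I, c (σ * τ) = c σ + χ σ * c τ

/-- The "strict" global `χ`-twisted cocycles killed by `l` (base case (5b), `μ_l`). -/
def IsStrict (l : ℕ) (χ : Γ →* ZMod m) (Ip : Subgroup Γ) (U : Set Γ)
    (v : (Γ → ZMod m) → ZMod m) (c : Γ → ZMod m) : Prop :=
  IsLocallyConstant c ∧ (∀ σ τ, c (σ * τ) = c σ + χ σ * c τ) ∧ (∀ σ, l • c σ = 0) ∧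
    (∀ σ ∈ Ip, c σ = 0) ∧ (∀ σ ∈ U, c σ = 0) ∧ v c = 0

/-- All the data and hypotheses of the abstract descent.
* `Ip`, `Il` : inertia subgroups at `p`, `l`; `U` : the union of the inertia groups at `q ∤ pl`;
* `φ` : an element of the decomposition group at `l` (a Frobenius lift);
* `χ` : the cyclotomic character mod `m`;
* `M = G^m` : the "multiplicative part" at `l`;
* `v` : the valuation of (the Kummer class of) a `χ`-twisted cocycle on `Il`. -/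
structure Setup (Γ : Type*) [Group Γ] [TopologicalSpace Γ] (G : Type*) [AddCommGroup G]
    [DistribMulAction Γ G] (l m : ℕ) [Module (ZMod m) G] where
  Ip : Subgroup Γ
  Il : Subgroup Γ
  U : Set Γ
  φ : Γ
  χ : Γ →* ZMod m
  M : AddSubgroup G
  v : (Γ → ZMod m) → ZMod m
  /-- the action on `G` is continuous -/
  cont : ∀ g : G, IsLocallyConstant (fun σ : Γ => σ • g)
  conj_mem : ∀ σ ∈ Il, φ⁻¹ * σ * φ ∈ Il
  φ_M : ∀ x ∈ M, φ • x ∈ M
  /-- `Il` acts on `M` through `χ` (Lemma O) -/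
  Il_M : ∀ σ ∈ Il, ∀ x ∈ M, σ • x = χ σ • x
  /-- `Il` acts trivially on `G / M` -/
  Il_quot : ∀ σ ∈ Il, ∀ g : G, σ • g - g ∈ M
  v_congr : ∀ c c' : Γ → ZMod m, (∀ σ ∈ Il, c σ = c' σ) → v c = v c'
  v_add : ∀ c c' : Γ → ZMod m, IsTwCocOn χ Il c → IsTwCocOn χ Il c' → v (c + c') = v c + v c'
  v_cob : ∀ a : ZMod m, v (fun σ => (χ σ - 1) * a) = 0
  v_conj : ∀ c : Γ → ZMod m, IsTwCocOn χ Il c → χ φ * v (fun σ => c (φ⁻¹ * σ * φ)) = v c
  /-- either `χ ≡ 1 mod l` (case `l = 2`) or `χ ≢ 1 mod l` on `Il` (case `l` odd) -/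
  omega : (∀ γ : Γ, ∀ a : ZMod m, l • a = 0 → χ γ * a = a) ∨
    (∃ σ ∈ Il, ∀ a : ZMod m, l • a = 0 → χ σ * a = a → a = 0)
  /-- (5b), Minkowski: an everywhere unramified homomorphism `Γ → ℤ/l` is trivial -/
  B1 : ∀ c : Γ → ZMod m, IsLocallyConstant c → (∀ σ τ, c (σ * τ) = c σ + c τ) →
    (∀ σ, l • c σ = 0) → (∀ σ ∈ Ip, c σ = 0) → (∀ σ ∈ Il, c σ = 0) → (∀ σ ∈ U, c σ = 0) →
    ∀ σ, c σ = 0
  /-- (5b), Kummer: there are at most `l` strict cocycles with values in `μ_l` -/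
  B2 : {c | IsStrict l χ Ip U v c}.Finite ∧ {c | IsStrict l χ Ip U v c}.ncard ≤ l

variable {G : Type*} [AddCommGroup G] [DistribMulAction Γ G] {l : ℕ} [Module (ZMod m) G]

/-- continuous 1-cocycles `Γ → G` -/
def IsCoc (ξ : Γ → G) : Prop :=
  IsLocallyConstant ξ ∧ ∀ σ τ, ξ (σ * τ) = ξ σ + σ • ξ τ

/-- the coboundary of `g` -/
def dd (g : G) : Γ → G := fun σ => σ • g - g

namespace Setup

variable (D : Setup Γ G l m)

/-- `z : Γ → G` is, on `Il`, a continuous cocycle with values in `M`. -/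
def IsLocCoc (z : Γ → G) : Prop :=
  IsLocallyConstant (fun σ : D.Il => z σ) ∧ (∀ σ ∈ D.Il, z σ ∈ D.M) ∧
    ∀ σ ∈ D.Il, ∀ τ ∈ D.Il, z (σ * τ) = z σ + σ • z τ

open Classical in
/-- `val z ∈ G` (in fact `∈ M`) is characterised by `y (val z) = v (y ∘ z)` for all functionals. -/
noncomputable def val (z : Γ → G) : G :=
  if h : ∃ a : G, ∀ y : G →+ ZMod m, y a = D.v (fun σ => y (z σ)) then h.choose else 0

/-- Selmer cocycles: unramified outside `p l`, Greenberg condition at `l`,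
locally a coboundary on `Ip`. -/
def IsSel (ξ : Γ → G) : Prop :=
  IsCoc ξ ∧ (∀ σ ∈ D.U, ξ σ = 0) ∧ (∀ σ ∈ D.Il, ξ σ ∈ D.M) ∧ ∃ g : G, ∀ σ ∈ D.Ip, ξ σ = σ • g - g

/-- pairs (Selmer cocycle with values in `H`, trivialisation on `Ip`) -/
def IsSelPair (H : AddSubgroup G) (x : (Γ → G) × G) : Prop :=
  IsCoc x.1 ∧ (∀ σ, x.1 σ ∈ H) ∧ (∀ σ ∈ D.U, x.1 σ = 0) ∧ (∀ σ ∈ D.Il, x.1 σ ∈ D.M) ∧
    ∀ σ ∈ D.Ip, x.1 σ = σ • x.2 - x.2

/-- one step of the Jordan-Hölder filtration: index `l`, `Γ` acts on `H / H'` by `1` or by `χ` -/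
structure Step (H' H : AddSubgroup G) : Prop where
  le : H' ≤ H
  card : Nat.card H = l * Nat.card H'
  act : (∀ γ : Γ, ∀ h ∈ H, γ • h - h ∈ H') ∨ (∀ γ : Γ, ∀ h ∈ H, γ • h - D.χ γ • h ∈ H')

/-- `H` is reachable from `⊥` by steps -/
inductive Filt : AddSubgroup G → Prop
  | bot : Filt ⊥
  | step {H' H : AddSubgroup G} : Filt H' → D.Step H' H → Filt H

end Setup

end Fermat.Agent.S15.Coh
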