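/-
S15 ABS-B (top level): the input structures.
* `ArithTower Γ l` : the arithmetic of `ℚ` needed by the descent (to be instantiated by S15-KUM);
* `Clean T 𝔾`      : the "clean data" on the divisible group `𝔾 = G''` (output of ABS-A = S15-LAT).
The theorem is `Clean.main` in `CleanMain.lean`.
-/
import Fermat.Agent.S15.Coh.Defs

set_option autoImplicit false

namespace Fermat.Agent.S15.Coh

/-- The arithmetic input, for all levels `m = l ^ r` at once.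
`Ip`, `Il` inertia groups at `p`, `l`; `U` the union of the inertia groups at the primes `q ∤ p l`;
`φ` an element of the decomposition group at `l`; `τ r ∈ Ip` an element such that a continuous
homomorphism `Ip → ℤ/l^r` vanishing at `τ r` vanishes; `χ r` the cyclotomic character mod `l^r`;
`v r` the valuation of the Kummer class of a `χ r`-twisted cocycle on `Il`. -/
structure ArithTower (Γ : Type*) [Group Γ] [TopologicalSpace Γ] (l : ℕ) where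
  Ip : Subgroup Γ
  Il : Subgroup Γ
  U : Set Γ
  φ : Γ
  τ : ℕ → Γ
  χ : ∀ r : ℕ, Γ →* ZMod (l ^ r)
  v : ∀ r : ℕ, (Γ → ZMod (l ^ r)) → ZMod (l ^ r)
  conj_mem : ∀ σ ∈ Il, φ⁻¹ * σ * φ ∈ Il
  v_congr : ∀ (r : ℕ) (c c' : Γ → ZMod (l ^ r)), (∀ σ ∈ Il, c σ = c' σ) → v r c = v r c'
  v_add : ∀ (r : ℕ) (c c' : Γ → ZMod (l ^ r)), IsTwCocOn (χ r) Il c → IsTwCocOn (χ r) Il c' →
    v r (c + c') = v r c + v r c'
  v_cob : ∀ (r : ℕ) (a : ZMod (l ^ r)), v r (fun σ => (χ r σ - 1) * a) = 0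
  v_conj : ∀ (r : ℕ) (c : Γ → ZMod (l ^ r)), IsTwCocOn (χ r) Il c →
    χ r φ * v r (fun σ => c (φ⁻¹ * σ * φ)) = v r c
  omega : ∀ r : ℕ, (∀ γ : Γ, ∀ a : ZMod (l ^ r), l • a = 0 → χ r γ * a = a) ∨
    (∃ σ ∈ Il, ∀ a : ZMod (l ^ r), l • a = 0 → χ r σ * a = a → a = 0)
  B1 : ∀ (r : ℕ) (c : Γ → ZMod (l ^ r)), IsLocallyConstant c → (∀ σ τ, c (σ * τ) = c σ + c τ) →
    (∀ σ, l • c σ = 0) → (∀ σ ∈ Ip, c σ = 0) → (∀ σ ∈ Il, c σ = 0) → (∀ σ ∈ U, c σ = 0) →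
    ∀ σ, c σ = 0
  B2 : ∀ r : ℕ, {c | IsStrict l (χ r) Ip U (v r) c}.Finite ∧
    {c | IsStrict l (χ r) Ip U (v r) c}.ncard ≤ l
  τ_mem : ∀ r, τ r ∈ Ip
  TI : ∀ (r : ℕ) (c : Γ → ZMod (l ^ r)), IsLocallyConstant (fun σ : Ip => c σ) →
    (∀ σ ∈ Ip, ∀ σ' ∈ Ip, c (σ * σ') = c σ + c σ') → c (τ r) = 0 → ∀ σ ∈ Ip, c σ = 0

variable {Γ : Type*} [Group Γ] [TopologicalSpace Γ] {l : ℕ}

/-- the `l ^ r`-torsion of `𝔾` -/
def lev (𝔾 : Type*) [AddCommGroup 𝔾] (l r : ℕ) : AddSubgroup 𝔾 where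
  carrier := {x | l ^ r • x = 0}
  zero_mem' := smul_zero _
  add_mem' := fun {a b} ha hb => by
    show l ^ r • (a + b) = 0
    rw [smul_add, show l ^ r • a = 0 from ha, show l ^ r • b = 0 from hb, add_zero]
  neg_mem' := fun {a} ha => by
    show l ^ r • (-a) = 0
    rw [smul_neg, show l ^ r • a = 0 from ha, neg_zero]

/-- one step of a Jordan-Hölder filtration of `𝔾[l^r]`, as subgroups of `𝔾` -/
structure BigStep (T : ArithTower Γ l) {𝔾 : Type*} [AddCommGroup 𝔾] [DistribMulAction Γ 𝔾]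
    (r : ℕ) (H' H : AddSubgroup 𝔾) : Prop where
  le : H' ≤ H
  card : Nat.card H = l * Nat.card H'
  act : (∀ γ : Γ, ∀ h ∈ H, γ • h - h ∈ H') ∨
    (∀ γ : Γ, ∀ h ∈ H, γ • h - (T.χ r γ).val • h ∈ H')

/-- `H` is reachable from `⊥` by steps -/
inductive BigFilt (T : ArithTower Γ l) {𝔾 : Type*} [AddCommGroup 𝔾] [DistribMulAction Γ 𝔾]
    (r : ℕ) : AddSubgroup 𝔾 → Prop
  | bot : BigFilt T r ⊥
  | step {H' H : AddSubgroup 𝔾} : BigFilt T r H' → BigStep T r H' H → BigFilt T r H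

/-- the invariants of a subgroup `I ≤ Γ` in `𝔾` -/
def bigInv {𝔾 : Type*} [AddCommGroup 𝔾] [DistribMulAction Γ 𝔾] (I : Subgroup Γ) :
    AddSubgroup 𝔾 where
  carrier := {g | ∀ σ ∈ I, σ • g = g}
  zero_mem' := fun σ _ => smul_zero σ
  add_mem' := fun {a b} ha hb σ hσ => by rw [smul_add, ha σ hσ, hb σ hσ]
  neg_mem' := fun {a} ha σ hσ => by rw [smul_neg, ha σ hσ]

/-- CLEAN DATA on `𝔾 = G''` (an `l`-primary group with `Γ`-action):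
`M = G''^m`, `W = W''`, `u` = the unit root operator. -/
structure Clean (T : ArithTower Γ l) (𝔾 : Type*) [AddCommGroup 𝔾] [DistribMulAction Γ 𝔾] where
  M : AddSubgroup 𝔾
  W : AddSubgroup 𝔾
  u : 𝔾 →+ 𝔾
  c : ℕ
  cont : ∀ x : 𝔾, IsLocallyConstant (fun σ : Γ => σ • x)
  fin : ∀ r : ℕ, Finite (lev 𝔾 l r)
  U_triv : ∀ σ ∈ T.U, ∀ x : 𝔾, σ • x = x
  /-- at `l` -/
  φ_M : ∀ x ∈ M, T.φ • x ∈ M
  Il_M : ∀ r : ℕ, ∀ σ ∈ T.Il, ∀ x ∈ M, l ^ r • x = 0 → σ • x = (T.χ r σ).val • x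
  Il_quot : ∀ σ ∈ T.Il, ∀ x : 𝔾, σ • x - x ∈ M
  u_comm : ∀ σ ∈ T.Il, ∀ x : 𝔾, u (σ • x) = σ • u x
  /-- `φ = u` on `𝔾 / M` -/
  φ_quot : ∀ x : 𝔾, T.φ • x - u x ∈ M
  /-- `φ = χ(φ) u⁻¹` on `M` -/
  φ_on_M : ∀ r : ℕ, ∀ x ∈ M, l ^ r • x = 0 → u (T.φ • x) = (T.χ r T.φ).val • x
  /-- `u² - 1` is an isogeny -/
  fin_u : {x : 𝔾 | u (u x) = x}.Finite
  fin_inv : {x : 𝔾 | ∀ σ : Γ, σ • x = x}.Finite
  /-- at `p` -/
  Ip_W : ∀ σ ∈ T.Ip, ∀ x ∈ W, σ • x = x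
  Ip_quot : ∀ σ ∈ T.Ip, ∀ x : 𝔾, σ • x - x ∈ W
  /-- the numerology `rank M + rank W ≤ rank 𝔾` (up to a constant) -/
  card_MW : ∀ r : ℕ, Nat.card (M ⊓ lev 𝔾 l r : AddSubgroup 𝔾) *
    Nat.card (W ⊓ lev 𝔾 l r : AddSubgroup 𝔾) ≤ l ^ c * Nat.card (lev 𝔾 l r)
  /-- (JH) -/
  filt : ∀ r : ℕ, BigFilt T r (lev 𝔾 l r)

end Fermat.Agent.S15.Coh
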