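/-
S15 ABS-B: the finite level `𝔾[l^r]` as a `Γ`-module and `ZMod (l^r)`-module, and the `Setup`
attached to clean data.
-/
import Fermat.Agent.S15.Coh.Clean

set_option autoImplicit false

namespace Fermat.Agent.S15.Coh

variable {Γ : Type*} [Group Γ] [TopologicalSpace Γ] {l : ℕ}
  {𝔾 : Type*} [AddCommGroup 𝔾] [DistribMulAction Γ 𝔾]

omit [TopologicalSpace Γ] in
theorem smul_mem_lev (r : ℕ) (σ : Γ) {x : 𝔾} (hx : x ∈ lev 𝔾 l r) : σ • x ∈ lev 𝔾 l r := by
  show l ^ r • (σ • x) = 0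
  rw [smul_comm, show l ^ r • x = 0 from hx, smul_zero]

instance levAction (r : ℕ) : DistribMulAction Γ (lev 𝔾 l r) where
  smul σ x := ⟨σ • x.1, smul_mem_lev r σ x.2⟩
  one_smul x := Subtype.ext (one_smul Γ x.1)
  mul_smul σ τ x := Subtype.ext (mul_smul σ τ x.1)
  smul_zero σ := Subtype.ext (smul_zero σ)
  smul_add σ x y := Subtype.ext (smul_add σ x.1 y.1)

omit [TopologicalSpace Γ] in
@[simp] theorem lev_coe_smul (r : ℕ) (σ : Γ) (x : lev 𝔾 l r) : ((σ • x : lev 𝔾 l r) : 𝔾) = σ • (x : 𝔾) :=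
  rfl

noncomputable instance levModule (r : ℕ) : Module (ZMod (l ^ r)) (lev 𝔾 l r) :=
  AddCommGroup.zmodModule (fun x => Subtype.ext (by
    rw [AddSubgroup.coe_nsmul]; exact x.2))

theorem lev_zmod_smul [NeZero l] (r : ℕ) (a : ZMod (l ^ r)) (x : lev 𝔾 l r) :
    ((a • x : lev 𝔾 l r) : 𝔾) = a.val • (x : 𝔾) := by
  conv_lhs => rw [← ZMod.natCast_zmod_val a, Nat.cast_smul_eq_nsmul]
  rfl

/-- the restriction of an additive endomorphism to the level -/
def levMap (r : ℕ) (u : 𝔾 →+ 𝔾) : lev 𝔾 l r →+ lev 𝔾 l r where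
  toFun x := ⟨u x.1, by
    show l ^ r • u x.1 = 0
    rw [← map_nsmul, show l ^ r • x.1 = 0 from x.2, map_zero]⟩
  map_zero' := Subtype.ext (map_zero u)
  map_add' x y := Subtype.ext (map_add u x.1 y.1)

theorem isLocallyConstant_lev (r : ℕ) {X : Type*} [TopologicalSpace X] (f : X → lev 𝔾 l r)
    (hf : IsLocallyConstant (fun x => (f x : 𝔾))) : IsLocallyConstant f := by
  intro s
  have : f ⁻¹' s = (fun x => (f x : 𝔾)) ⁻¹' (Subtype.val '' s) := by
    ext x
    simp only [Set.mem_preimage, Set.mem_image, Subtype.exists, exists_and_right, exists_eq_right]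
    constructor
    · intro h; exact ⟨(f x).2, h⟩
    · rintro ⟨_, h⟩; exact h
  rw [this]
  exact hf _

/-- the `Setup` at level `r` attached to clean data -/
noncomputable def Clean.setup [NeZero l] {T : ArithTower Γ l} (C : Clean T 𝔾) (r : ℕ) :
    Setup Γ (lev 𝔾 l r) l (l ^ r) where
  Ip := T.Ip
  Il := T.Il
  U := T.U
  φ := T.φ
  χ := T.χ r
  M := C.M.addSubgroupOf (lev 𝔾 l r)
  v := T.v r
  cont := fun g => isLocallyConstant_lev r _ (C.cont g.1)
  conj_mem := T.conj_mem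
  φ_M := fun x hx => C.φ_M x.1 hx
  Il_M := fun σ hσ x hx => Subtype.ext (by
    rw [lev_zmod_smul]; exact C.Il_M r σ hσ x.1 hx x.2)
  Il_quot := fun σ hσ g => C.Il_quot σ hσ g.1
  v_congr := T.v_congr r
  v_add := T.v_add r
  v_cob := T.v_cob r
  v_conj := T.v_conj r
  omega := T.omega r
  B1 := T.B1 r
  B2 := T.B2 r

end Fermat.Agent.S15.Coh
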