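/-
S15-COH: duality for finite abelian groups killed by `m`, with values in `ZMod m`
(additive transport of `Mathlib/GroupTheory/FiniteAbelian/Duality.lean`).
-/
import Mathlib

set_option autoImplicit false

namespace Fermat.Agent.S15.Coh

theorem Dual_hasEnough (m : ℕ) [NeZero m] :
    HasEnoughRootsOfUnity (Multiplicative (ZMod m)) m where
  prim := ⟨Multiplicative.ofAdd 1, by
    have h := IsPrimitiveRoot.orderOf (Multiplicative.ofAdd (1 : ZMod m))
    rwa [orderOf_ofAdd_eq_addOrderOf, ZMod.addOrderOf_one] at h⟩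
  cyc := by
    have : IsCyclic (Multiplicative (ZMod m))ˣ :=
      isCyclic_of_surjective (toUnits (G := Multiplicative (ZMod m))) toUnits.surjective
    infer_instance

variable {m : ℕ} [NeZero m] {G : Type*} [AddCommGroup G] [Module (ZMod m) G] [Finite G]

omit [NeZero m] [Finite G] in
theorem Dual_nsmul_eq_zero (g : G) : m • g = 0 := by
  have h : ((m : ZMod m)) • g = 0 := by rw [ZMod.natCast_self, zero_smul]
  rwa [Nat.cast_smul_eq_nsmul] at h

omit [Finite G] in
theorem Dual_hasEnough' :
    HasEnoughRootsOfUnity (Multiplicative (ZMod m)) (Monoid.exponent (Multiplicative G)) := by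
  have := Dual_hasEnough m
  refine HasEnoughRootsOfUnity.of_dvd (Multiplicative (ZMod m)) (n := m)
    (Monoid.exponent_dvd_of_forall_pow_eq_one fun g => ?_)
  show Multiplicative.ofAdd (m • Multiplicative.toAdd g) = 1
  rw [Dual_nsmul_eq_zero (m := m)]
  rfl

/-- the dictionary between additive functionals and multiplicative characters. -/
noncomputable def Dual_equiv (m : ℕ) (G : Type*) [AddCommGroup G] :
    (G →+ ZMod m) ≃ (Multiplicative G →* (Multiplicative (ZMod m))ˣ) :=
  AddMonoidHom.toMultiplicative.trans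
    (MulEquiv.monoidHomCongrRight (toUnits (G := Multiplicative (ZMod m)))).toEquiv

theorem Dual_equiv_apply (m : ℕ) (G : Type*) [AddCommGroup G] (y : G →+ ZMod m) (g : G) :
    Dual_equiv m G y (Multiplicative.ofAdd g) = toUnits (Multiplicative.ofAdd (y g)) := rfl

theorem Dual_equiv_eq_one_iff (m : ℕ) (G : Type*) [AddCommGroup G] (y : G →+ ZMod m) (g : G) :
    Dual_equiv m G y (Multiplicative.ofAdd g) = 1 ↔ y g = 0 := by
  rw [Dual_equiv_apply, map_eq_one_iff _ toUnits.injective]
  exact ofAdd_eq_one

/-- separation: functionals vanishing on `H` detect membership in `H`. -/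
theorem exists_functional_of_not_mem (H : AddSubgroup G) {a : G} (ha : a ∉ H) :
    ∃ y : G →+ ZMod m, (∀ h ∈ H, y h = 0) ∧ y a ≠ 0 := by
  by_contra hcon
  push Not at hcon
  have := Dual_hasEnough' (m := m) (G := G)
  refine ha ?_
  have h1 := (CommGroup.forall_monoidHom_apply_eq_one_iff (Multiplicative (ZMod m))
    (AddSubgroup.toSubgroup H) (Multiplicative.ofAdd a)).1 ?_
  · exact h1
  · intro φ hφ
    obtain ⟨y, rfl⟩ := (Dual_equiv m G).surjective φ
    rw [Dual_equiv_eq_one_iff]
    refine hcon y fun h hh => ?_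
    rw [← Dual_equiv_eq_one_iff]
    exact hφ (Multiplicative.ofAdd h) hh

theorem Dual_card : Nat.card (G →+ ZMod m) = Nat.card G := by
  have := Dual_hasEnough' (m := m) (G := G)
  rw [Nat.card_congr (Dual_equiv m G),
    CommGroup.card_monoidHom_of_hasEnoughRootsOfUnity (Multiplicative G) (Multiplicative (ZMod m))]
  rfl

/-- double duality: every additive functional on the dual is an evaluation. -/
theorem exists_eval_eq (x : (G →+ ZMod m) →+ ZMod m) :
    ∃ a : G, ∀ y : G →+ ZMod m, y a = x y := by
  have hfin : Finite (G →+ ZMod m) := Finite.of_injective _ DFunLike.coe_injective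
  have hfin2 : Finite ((G →+ ZMod m) →+ ZMod m) := Finite.of_injective _ DFunLike.coe_injective
  let ev : G → ((G →+ ZMod m) →+ ZMod m) := fun a => AddMonoidHom.eval a
  have hinj : Function.Injective ev := by
    intro a b hab
    by_contra hne
    have hne' : a - b ∉ (⊥ : AddSubgroup G) := by
      simpa [sub_eq_zero] using hne
    obtain ⟨y, -, hy⟩ := exists_functional_of_not_mem (m := m) ⊥ hne'
    refine hy ?_
    have := DFunLike.congr_fun hab y
    rw [map_sub, sub_eq_zero]
    exact this
  have hcard : Nat.card G = Nat.card ((G →+ ZMod m) →+ ZMod m) := by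
    rw [Dual_card, Dual_card]
  obtain ⟨a, ha⟩ := ((Nat.bijective_iff_injective_and_card ev).2 ⟨hinj, hcard⟩).2 x
  exact ⟨a, fun y => by rw [← ha]; rfl⟩

/-- functionals separate points -/
theorem eq_of_forall_functional {a b : G} (h : ∀ y : G →+ ZMod m, y a = y b) : a = b := by
  by_contra hab
  have hne : a - b ∉ (⊥ : AddSubgroup G) := by
    simpa [sub_eq_zero] using hab
  obtain ⟨y, -, hy⟩ := exists_functional_of_not_mem (m := m) ⊥ hne
  exact hy (by rw [map_sub, h y, sub_self])

/-- membership test by functionals -/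
theorem mem_of_forall_functional (H : AddSubgroup G) {a : G}
    (h : ∀ y : G →+ ZMod m, (∀ h ∈ H, y h = 0) → y a = 0) : a ∈ H := by
  by_contra ha
  obtain ⟨y, hy, hya⟩ := exists_functional_of_not_mem (m := m) H ha
  exact hya (h y hy)

end Fermat.Agent.S15.Coh
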