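/-
S15-COH: the map `val` on local cocycles (values in `M`, on `Il`) and its formal properties.
`y (val z) = v (y ∘ z)` for every functional `y : G →+ ZMod m`.
-/
import Fermat.Agent.S15.Coh.Defs
import Fermat.Agent.S15.Coh.Dual

set_option autoImplicit false

namespace Fermat.Agent.S15.Coh

variable {Γ : Type*} [Group Γ] [TopologicalSpace Γ] {l m : ℕ}
  {G : Type*} [AddCommGroup G] [DistribMulAction Γ G] [Module (ZMod m) G]

namespace Setup

variable (D : Setup Γ G l m)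

/-- V1 -/
theorem isTwCocOn_comp {z : Γ → G} (hz : D.IsLocCoc z) (y : G →+ ZMod m) :
    IsTwCocOn D.χ D.Il (fun σ => y (z σ)) := by
  refine ⟨hz.1.comp y, fun σ hσ τ hτ => ?_⟩
  show y (z (σ * τ)) = y (z σ) + D.χ σ * y (z τ)
  rw [hz.2.2 σ hσ τ hτ, map_add, D.Il_M σ hσ _ (hz.2.1 τ hτ), ZMod.map_smul, smul_eq_mul]

/-- V2 -/
theorem isLocCoc_add {z z' : Γ → G} (hz : D.IsLocCoc z) (hz' : D.IsLocCoc z') :
    D.IsLocCoc (z + z') := by
  refine ⟨hz.1.add hz'.1, fun σ hσ => add_mem (hz.2.1 σ hσ) (hz'.2.1 σ hσ),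
    fun σ hσ τ hτ => ?_⟩
  simp only [Pi.add_apply]
  rw [hz.2.2 σ hσ τ hτ, hz'.2.2 σ hσ τ hτ, smul_add]
  abel

/-- V3 -/
theorem isLocCoc_dd (g : G) : D.IsLocCoc (dd g) := by
  refine ⟨?_, fun σ hσ => D.Il_quot σ hσ g, fun σ _ τ _ => ?_⟩
  · exact ((D.cont g).comp_continuous continuous_subtype_val).comp fun x => x - g
  · unfold dd
    rw [mul_smul, smul_sub]
    abel

/-- V4 -/
theorem isLocCoc_of_isCoc {ξ : Γ → G} (hξ : IsCoc ξ) (h : ∀ σ ∈ D.Il, ξ σ ∈ D.M) :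
    D.IsLocCoc ξ := by
  exact ⟨hξ.1.comp_continuous continuous_subtype_val, h, fun σ _ τ _ => hξ.2 σ τ⟩

/-- V5 -/
theorem v_zero (c : Γ → ZMod m) (hc : ∀ σ ∈ D.Il, c σ = 0) : D.v c = 0 := by
  rw [D.v_congr c (fun σ => (D.χ σ - 1) * 0) fun σ hσ => by rw [hc σ hσ, mul_zero]]
  exact D.v_cob 0

variable [NeZero m] [Finite G]

/-- V6: the defining property of `val` (double duality). -/
theorem val_spec {z : Γ → G} (hz : D.IsLocCoc z) (y : G →+ ZMod m) :
    y (D.val z) = D.v (fun σ => y (z σ)) := by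
  have hex : ∃ a : G, ∀ y : G →+ ZMod m, y a = D.v (fun σ => y (z σ)) :=
    exists_eval_eq (AddMonoidHom.mk' (fun y : G →+ ZMod m => D.v (fun σ => y (z σ)))
      fun y y' => D.v_add _ _ (D.isTwCocOn_comp hz y) (D.isTwCocOn_comp hz y'))
  unfold val
  rw [dif_pos hex]
  exact hex.choose_spec y

/-- V7 -/
theorem val_add {z z' : Γ → G} (hz : D.IsLocCoc z) (hz' : D.IsLocCoc z') :
    D.val (z + z') = D.val z + D.val z' := by
  apply eq_of_forall_functional (m := m)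
  intro y
  rw [map_add, D.val_spec (D.isLocCoc_add hz hz'), D.val_spec hz, D.val_spec hz',
    ← D.v_add _ _ (D.isTwCocOn_comp hz y) (D.isTwCocOn_comp hz' y)]
  congr 1
  funext σ
  exact map_add y (z σ) (z' σ)

/-- V8: naturality for subgroups. -/
theorem val_mem {z : Γ → G} (hz : D.IsLocCoc z) (H : AddSubgroup G)
    (hH : ∀ σ ∈ D.Il, z σ ∈ H) : D.val z ∈ H := by
  apply mem_of_forall_functional (m := m) H
  intro y hy
  rw [D.val_spec hz]
  exact D.v_zero _ fun σ hσ => hy _ (hH σ hσ)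

/-- V9: coboundaries of elements of `M` have valuation `0`. -/
theorem val_dd_of_mem {g : G} (hg : g ∈ D.M) : D.val (dd g : Γ → G) = 0 := by
  apply eq_of_forall_functional (m := m)
  intro y
  rw [D.val_spec (D.isLocCoc_dd g), map_zero, D.v_congr _ (fun σ => (D.χ σ - 1) * y g) ?_]
  · exact D.v_cob _
  · intro σ hσ
    show y (σ • g - g) = _
    rw [D.Il_M σ hσ g hg, map_sub, ZMod.map_smul, smul_eq_mul]
    ring

end Setup

end Fermat.Agent.S15.Coh
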