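/-
S15-COH: the subgroups occurring in the count.
-/
import Fermat.Agent.S15.Coh.Val

set_option autoImplicit false

namespace Fermat.Agent.S15.Coh

variable {Γ : Type*} [Group Γ] [TopologicalSpace Γ] {l m : ℕ}
  {G : Type*} [AddCommGroup G] [DistribMulAction Γ G] [Module (ZMod m) G]

/-- the invariants of a subgroup `I ≤ Γ` -/
def inv (I : Subgroup Γ) : AddSubgroup G where
  carrier := {g | ∀ σ ∈ I, σ • g = g}
  zero_mem' := fun σ _ => smul_zero σ
  add_mem' := fun {a b} ha hb σ hσ => by rw [smul_add, ha σ hσ, hb σ hσ]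
  neg_mem' := fun {a} ha σ hσ => by rw [smul_neg, ha σ hσ]

theorem isCoc_zero : IsCoc (0 : Γ → G) :=
  ⟨IsLocallyConstant.const 0, fun σ τ => by simp⟩

theorem IsCoc.add {ξ ξ' : Γ → G} (h : IsCoc ξ) (h' : IsCoc ξ') : IsCoc (ξ + ξ') :=
  ⟨h.1.add h'.1, fun σ τ => by
    simp only [Pi.add_apply, h.2 σ τ, h'.2 σ τ, smul_add]; abel⟩

theorem IsCoc.neg {ξ : Γ → G} (h : IsCoc ξ) : IsCoc (-ξ) :=
  ⟨h.1.neg, fun σ τ => by
    simp only [Pi.neg_apply, h.2 σ τ, smul_neg]; abel⟩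

namespace Setup

variable (D : Setup Γ G l m)

/-- `A(H) = {g : (σ - 1) g ∈ H for all σ ∈ Ip}` -/
def AA (H : AddSubgroup G) : AddSubgroup G where
  carrier := {g | ∀ σ ∈ D.Ip, σ • g - g ∈ H}
  zero_mem' := fun σ _ => by simp
  add_mem' := fun {a b} ha hb σ hσ => by
    have := H.add_mem (ha σ hσ) (hb σ hσ)
    have e : σ • (a + b) - (a + b) = (σ • a - a) + (σ • b - b) := by rw [smul_add]; abel
    rw [e]; exact this
  neg_mem' := fun {a} ha σ hσ => by
    have := H.neg_mem (ha σ hσ)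
    have e : σ • (-a) - (-a) = -(σ • a - a) := by rw [smul_neg]; abel
    rw [e]; exact this

/-- the group of pairs (Selmer cocycle with values in `H`, trivialisation on `Ip`) -/
def selPair (H : AddSubgroup G) : AddSubgroup ((Γ → G) × G) where
  carrier := {x | D.IsSelPair H x}
  zero_mem' := ⟨isCoc_zero, fun _ => H.zero_mem, fun _ _ => rfl, fun _ _ => D.M.zero_mem,
    fun σ _ => by simp⟩
  add_mem' := fun {a b} ha hb =>
    ⟨ha.1.add hb.1, fun σ => H.add_mem (ha.2.1 σ) (hb.2.1 σ),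
      fun σ hσ => by simp [ha.2.2.1 σ hσ, hb.2.2.1 σ hσ],
      fun σ hσ => D.M.add_mem (ha.2.2.2.1 σ hσ) (hb.2.2.2.1 σ hσ),
      fun σ hσ => by
        simp only [Prod.fst_add, Prod.snd_add, Pi.add_apply, ha.2.2.2.2 σ hσ, hb.2.2.2.2 σ hσ,
          smul_add]
        abel⟩
  neg_mem' := fun {a} ha =>
    ⟨ha.1.neg, fun σ => H.neg_mem (ha.2.1 σ),
      fun σ hσ => by simp [ha.2.2.1 σ hσ],
      fun σ hσ => D.M.neg_mem (ha.2.2.2.1 σ hσ),
      fun σ hσ => by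
        simp only [Prod.fst_neg, Prod.snd_neg, Pi.neg_apply, ha.2.2.2.2 σ hσ, smul_neg]
        abel⟩

/-- the group of Selmer cocycles -/
def sel : AddSubgroup (Γ → G) where
  carrier := {ξ | D.IsSel ξ}
  zero_mem' := ⟨isCoc_zero, fun _ _ => rfl, fun _ _ => D.M.zero_mem, 0, fun σ _ => by simp⟩
  add_mem' := fun {a b} ha hb => by
    obtain ⟨ha1, ha2, ha3, g, hg⟩ := ha
    obtain ⟨hb1, hb2, hb3, g', hg'⟩ := hb
    exact ⟨ha1.add hb1, fun σ hσ => by simp [ha2 σ hσ, hb2 σ hσ],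
      fun σ hσ => D.M.add_mem (ha3 σ hσ) (hb3 σ hσ), g + g', fun σ hσ => by
        simp only [Pi.add_apply, hg σ hσ, hg' σ hσ, smul_add]; abel⟩
  neg_mem' := fun {a} ha => by
    obtain ⟨ha1, ha2, ha3, g, hg⟩ := ha
    exact ⟨ha1.neg, fun σ hσ => by simp [ha2 σ hσ],
      fun σ hσ => D.M.neg_mem (ha3 σ hσ), -g, fun σ hσ => by
        simp only [Pi.neg_apply, hg σ hσ, smul_neg]; abel⟩

omit [TopologicalSpace Γ] in
theorem dd_add (g g' : G) : (dd (g + g') : Γ → G) = dd g + dd g' := by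
  funext σ; simp only [dd, Pi.add_apply, smul_add]; abel

/-- `x ↦ φ x - χ(φ) x` -/
noncomputable def frobMinus : G →+ G :=
  DistribSMul.toAddMonoidHom G D.φ - (D.χ D.φ) • AddMonoidHom.id G

theorem frobMinus_apply (x : G) : D.frobMinus x = D.φ • x - D.χ D.φ • x := rfl

variable [NeZero m] [Finite G]

/-- `g ↦ val (σ ↦ σ g - g)`, the composite `G → G/M = G^e → H^1(Il, M) → M(-1)` -/
noncomputable def valD : G →+ G :=
  AddMonoidHom.mk' (fun g => D.val (dd g : Γ → G)) (fun g g' => by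
    rw [dd_add, D.val_add (D.isLocCoc_dd g) (D.isLocCoc_dd g')])

/-- `Z = val δ (G^e)` -/
noncomputable def ZZ : AddSubgroup G := D.valD.range

theorem valD_apply (g : G) : D.valD g = D.val (dd g : Γ → G) := rfl

/-- `B' = {x ∈ M : φ x - χ(φ) x ∈ Z}` -/
noncomputable def BB : AddSubgroup G := D.M ⊓ D.ZZ.comap D.frobMinus

theorem mem_BB {x : G} : x ∈ D.BB ↔ x ∈ D.M ∧ ∃ g : G, D.valD g = D.φ • x - D.χ D.φ • x :=
  Iff.rfl

end Setup

end Fermat.Agent.S15.Coh
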