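/-
S15 ABS-B: transfer of the filtration and of the cardinalities from `𝔾` to the level `𝔾[l^r]`.
-/
import Fermat.Agent.S15.Coh.Lev
import Fermat.Agent.S15.Coh.Sub

set_option autoImplicit false

namespace Fermat.Agent.S15.Coh

variable {Γ : Type*} [Group Γ] [TopologicalSpace Γ] {l : ℕ} [NeZero l]
  {𝔾 : Type*} [AddCommGroup 𝔾] [DistribMulAction Γ 𝔾] {T : ArithTower Γ l}

namespace Clean

variable (C : Clean T 𝔾) (r : ℕ)

/-- CA0: for a subgroup `H` of `𝔾`, `H.addSubgroupOf (lev r)` has as many elements as `H ⊓ lev r`. -/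
theorem card_addSubgroupOf_lev (H : AddSubgroup 𝔾) :
    Nat.card (H.addSubgroupOf (lev 𝔾 l r)) = Nat.card (H ⊓ lev 𝔾 l r : AddSubgroup 𝔾) := by
  exact Nat.card_congr
    { toFun := fun x => ⟨x.1.1, x.2, x.1.2⟩
      invFun := fun y => ⟨⟨y.1, y.2.2⟩, y.2.1⟩
      left_inv := fun _ => rfl
      right_inv := fun _ => rfl }

/-- CA1: a big step inside `lev r` gives a step of the level. -/
theorem step_of_bigStep {H' H : AddSubgroup 𝔾} (hH : H ≤ lev 𝔾 l r) (hS : BigStep T r H' H) :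
    (C.setup r).Step (H'.addSubgroupOf (lev 𝔾 l r)) (H.addSubgroupOf (lev 𝔾 l r)) := by
  refine ⟨AddSubgroup.comap_mono hS.le, ?_, ?_⟩
  · rw [card_addSubgroupOf_lev, card_addSubgroupOf_lev, inf_eq_left.mpr hH,
      inf_eq_left.mpr (hS.le.trans hH)]
    exact hS.card
  · rcases hS.act with h1 | h2
    · left
      intro γ h hh
      exact h1 γ h.1 hh
    · right
      intro γ h hh
      rw [AddSubgroup.mem_addSubgroupOf, AddSubgroup.coe_sub, lev_coe_smul, lev_zmod_smul]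
      exact h2 γ h.1 hh

/-- CA2: transfer of filtrations. -/
theorem filt_of_bigFilt {H : AddSubgroup 𝔾} (hH : H ≤ lev 𝔾 l r) (hF : BigFilt T r H) :
    (C.setup r).Filt (H.addSubgroupOf (lev 𝔾 l r)) := by
  induction hF with
  | bot =>
    rw [AddSubgroup.bot_addSubgroupOf]
    exact Setup.Filt.bot
  | step _ hS ih => exact Setup.Filt.step (ih (hS.le.trans hH)) (C.step_of_bigStep r hH hS)

/-- CA3 -/
theorem filt_top : (C.setup r).Filt ⊤ := by
  have := C.filt_of_bigFilt r le_rfl (C.filt r)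
  rwa [AddSubgroup.addSubgroupOf_self] at this

/-- CA4 -/
theorem card_setup_M :
    Nat.card (C.setup r).M = Nat.card (C.M ⊓ lev 𝔾 l r : AddSubgroup 𝔾) :=
  card_addSubgroupOf_lev r C.M

/-- CA5 -/
theorem card_inv_Ip :
    Nat.card (inv T.Ip : AddSubgroup (lev 𝔾 l r)) =
      Nat.card (bigInv T.Ip ⊓ lev 𝔾 l r : AddSubgroup 𝔾) := by
  have h : (inv T.Ip : AddSubgroup (lev 𝔾 l r)) = (bigInv T.Ip).addSubgroupOf (lev 𝔾 l r) := by
    ext x
    constructor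
    · intro h σ hσ
      exact congrArg Subtype.val (h σ hσ)
    · intro h σ hσ
      exact Subtype.ext (h σ hσ)
  rw [h, card_addSubgroupOf_lev]

/-- CA6 -/
theorem card_inv_top_le (hfin : {x : 𝔾 | ∀ σ : Γ, σ • x = x}.Finite) :
    Nat.card (inv (⊤ : Subgroup Γ) : AddSubgroup (lev 𝔾 l r)) ≤
      {x : 𝔾 | ∀ σ : Γ, σ • x = x}.ncard := by
  have := hfin.to_subtype
  rw [← Nat.card_coe_set_eq]
  refine Nat.card_le_card_of_injective
    (fun x : (inv (⊤ : Subgroup Γ) : AddSubgroup (lev 𝔾 l r)) =>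
      (⟨x.1.1, fun σ => congrArg Subtype.val (x.2 σ trivial)⟩ : {x : 𝔾 | ∀ σ : Γ, σ • x = x})) ?_
  intro x y hxy
  have h0 := congrArg (fun z : {x : 𝔾 | ∀ σ : Γ, σ • x = x} => (z : 𝔾)) hxy
  have h1 : (x.1.1 : 𝔾) = y.1.1 := h0
  exact Subtype.ext (Subtype.ext h1)

/-- CA7: `W ⊓ lev r ≤ 𝔾^{Ip} ⊓ lev r`. -/
theorem card_W_le_card_inv :
    Nat.card (C.W ⊓ lev 𝔾 l r : AddSubgroup 𝔾) ≤
      Nat.card (bigInv T.Ip ⊓ lev 𝔾 l r : AddSubgroup 𝔾) := by
  have := C.fin r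
  have hfin : Finite (bigInv T.Ip ⊓ lev 𝔾 l r : AddSubgroup 𝔾) :=
    Finite.of_injective (AddSubgroup.inclusion (inf_le_right : bigInv T.Ip ⊓ lev 𝔾 l r ≤ lev 𝔾 l r))
      (AddSubgroup.inclusion_injective _)
  exact AddSubgroup.card_le_of_le (inf_le_inf_right _ fun x hx σ hσ => C.Ip_W σ hσ x hx)

end Clean

end Fermat.Agent.S15.Coh
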