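/-
S15-COH: Frobenius relations and functoriality for `val` (V10, V11, V12).
-/
import Fermat.Agent.S15.Coh.Val

set_option autoImplicit false

namespace Fermat.Agent.S15.Coh

variable {Γ : Type*} [Group Γ] [TopologicalSpace Γ] {l m : ℕ}
  {G : Type*} [AddCommGroup G] [DistribMulAction Γ G] [Module (ZMod m) G]

namespace Setup

variable (D : Setup Γ G l m) [NeZero m] [Finite G]

/-- V10: Frobenius relation for the restriction to `Il` of a cocycle defined on all of `Γ`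
(only `φ` and `Il` matter). -/
theorem val_frob {ξ : Γ → G} (hξ : IsCoc ξ) (h : ∀ σ ∈ D.Il, ξ σ ∈ D.M) :
    D.φ • D.val ξ - D.χ D.φ • D.val ξ = D.χ D.φ • D.val (dd (ξ D.φ) : Γ → G) := by
  have hz : D.IsLocCoc ξ := D.isLocCoc_of_isCoc hξ h
  have hd : D.IsLocCoc (dd (ξ D.φ) : Γ → G) := D.isLocCoc_dd _
  refine eq_of_forall_functional (m := m) fun y => ?_
  set y' : G →+ ZMod m := y.comp (DistribSMul.toAddMonoidHom G D.φ) with hy'
  have hconj := D.v_conj (fun σ => y' (ξ σ)) (D.isTwCocOn_comp hz y')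
  have hfun : (fun σ => y' (ξ (D.φ⁻¹ * σ * D.φ))) =
      (fun σ => y (ξ σ)) + (fun σ => y ((dd (ξ D.φ) : Γ → G) σ)) := by
    funext s
    have h1 : ξ (D.φ * (D.φ⁻¹ * s * D.φ)) = ξ D.φ + D.φ • ξ (D.φ⁻¹ * s * D.φ) := hξ.2 _ _
    have h2 : ξ (s * D.φ) = ξ s + s • ξ D.φ := hξ.2 _ _
    have h3 : D.φ * (D.φ⁻¹ * s * D.φ) = s * D.φ := by group
    rw [h3, h2] at h1
    have h4 : D.φ • ξ (D.φ⁻¹ * s * D.φ) = ξ s + (s • ξ D.φ - ξ D.φ) := by
      rw [add_sub_assoc', h1, add_sub_cancel_left]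
    show y (D.φ • ξ (D.φ⁻¹ * s * D.φ)) = y (ξ s) + y (s • ξ D.φ - ξ D.φ)
    rw [h4, map_add]
  rw [hfun, D.v_add _ _ (D.isTwCocOn_comp hz y) (D.isTwCocOn_comp hd y), ← D.val_spec hz y,
    ← D.val_spec hd y, ← D.val_spec hz y'] at hconj
  have h5 : y' (D.val ξ) = y (D.φ • D.val ξ) := rfl
  rw [h5] at hconj
  rw [map_sub, ZMod.map_smul, ZMod.map_smul, ← hconj, smul_eq_mul, smul_eq_mul]
  ring

/-- V11: Frobenius equivariance of `g ↦ val (dd g)`. -/
theorem val_dd_frob (g : G) :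
    D.χ D.φ • D.val (dd (D.φ • g) : Γ → G) = D.φ • D.val (dd g : Γ → G) := by
  have hd : D.IsLocCoc (dd g : Γ → G) := D.isLocCoc_dd _
  have hd' : D.IsLocCoc (dd (D.φ • g) : Γ → G) := D.isLocCoc_dd _
  refine eq_of_forall_functional (m := m) fun y => ?_
  set y' : G →+ ZMod m := y.comp (DistribSMul.toAddMonoidHom G D.φ) with hy'
  have hconj := D.v_conj (fun σ => y' ((dd g : Γ → G) σ)) (D.isTwCocOn_comp hd y')
  have hfun : (fun σ => y' ((dd g : Γ → G) (D.φ⁻¹ * σ * D.φ))) =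
      (fun σ => y ((dd (D.φ • g) : Γ → G) σ)) := by
    funext s
    show y (D.φ • ((D.φ⁻¹ * s * D.φ) • g - g)) = y (s • D.φ • g - D.φ • g)
    rw [smul_sub, ← mul_smul, ← mul_smul]
    congr 3
    group
  rw [hfun, ← D.val_spec hd' y, ← D.val_spec hd y'] at hconj
  have h5 : y' (D.val (dd g : Γ → G)) = y (D.φ • D.val (dd g : Γ → G)) := rfl
  rw [h5] at hconj
  rw [ZMod.map_smul, smul_eq_mul, hconj]

/-- V12: `g ↦ val (dd g)` commutes with every endomorphism commuting with `Il`. -/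
theorem val_dd_comm (t : G →+ G) (ht : ∀ σ ∈ D.Il, ∀ g, t (σ • g) = σ • t g) (g : G) :
    D.val (dd (t g) : Γ → G) = t (D.val (dd g : Γ → G)) := by
  have hd : D.IsLocCoc (dd g : Γ → G) := D.isLocCoc_dd _
  have hd' : D.IsLocCoc (dd (t g) : Γ → G) := D.isLocCoc_dd _
  refine eq_of_forall_functional (m := m) fun y => ?_
  have h1 : y (t (D.val (dd g : Γ → G))) = (y.comp t) (D.val (dd g : Γ → G)) := rfl
  rw [h1, D.val_spec hd', D.val_spec hd (y.comp t)]
  refine D.v_congr _ _ fun σ hσ => ?_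
  show y (σ • t g - t g) = y (t (σ • g - g))
  rw [map_sub t, ht σ hσ]

end Setup

end Fermat.Agent.S15.Coh
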