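/-
S15-COH: complements: bounding `B'` (Ma8, Ma9) and the local condition at `p` (AtP).
-/
import Fermat.Agent.S15.Coh.Sub
import Fermat.Agent.S15.Coh.ValFrob

set_option autoImplicit false

namespace Fermat.Agent.S15.Coh

variable {Γ : Type*} [Group Γ] [TopologicalSpace Γ] {l m : ℕ}
  {G : Type*} [AddCommGroup G] [DistribMulAction Γ G] [Module (ZMod m) G]

theorem Extra_card_hom {S Q : Type*} [AddCommGroup S] [AddCommGroup Q] (φ : S →+ Q) :
    Nat.card S = Nat.card φ.range * Nat.card φ.ker := by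
  rw [AddSubgroup.card_eq_card_quotient_mul_card_addSubgroup φ.ker,
    Nat.card_congr (QuotientAddGroup.quotientKerEquivRange φ).toEquiv]

namespace Setup

variable (D : Setup Γ G l m) [NeZero m] [Finite G]

/-- Ma8: `|B'| ≤ |Z| * |ker (φ - χ(φ) on M)|`. -/
theorem card_BB_le :
    Nat.card D.BB ≤ Nat.card D.ZZ * Nat.card (D.M ⊓ D.frobMinus.ker : AddSubgroup G) := by
  let f : D.BB →+ D.ZZ :=
    AddMonoidHom.mk' (fun x => ⟨D.frobMinus x, x.2.2⟩)
      (fun x y => Subtype.ext (map_add D.frobMinus (x : G) (y : G)))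
  have h1 : Nat.card f.range ≤ Nat.card D.ZZ :=
    Nat.card_le_card_of_injective _ Subtype.val_injective
  let i : f.ker → (D.M ⊓ D.frobMinus.ker : AddSubgroup G) := fun x =>
    ⟨((x : D.BB) : G), (x : D.BB).2.1, congrArg Subtype.val x.2⟩
  have hi : Function.Injective i := by
    intro x y hxy
    apply Subtype.ext
    apply Subtype.ext
    exact congrArg (fun t : (D.M ⊓ D.frobMinus.ker : AddSubgroup G) => (t : G)) hxy
  have h2 : Nat.card f.ker ≤ Nat.card (D.M ⊓ D.frobMinus.ker : AddSubgroup G) :=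
    Nat.card_le_card_of_injective i hi
  rw [Extra_card_hom f]
  exact Nat.mul_le_mul h1 h2

/-- Ma9: properties of `valD` for bounding `Z` (collected from `Val.lean`). -/
theorem valD_props :
    (∀ g ∈ D.M, D.valD g = 0) ∧ (∀ g, D.valD g ∈ D.M) ∧
      (∀ g, D.χ D.φ • D.valD (D.φ • g) = D.φ • D.valD g) ∧
      (∀ t : G →+ G, (∀ σ ∈ D.Il, ∀ g, t (σ • g) = σ • t g) → ∀ g, D.valD (t g) = t (D.valD g)) :=
  ⟨fun _ hg => D.val_dd_of_mem hg,
    fun g => D.val_mem (D.isLocCoc_dd g) D.M (D.isLocCoc_dd g).2.1,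
    fun g => D.val_dd_frob g, fun t ht g => D.val_dd_comm t ht g⟩

end Setup

/-- a continuous additive map on `Ip` which vanishes at `τ` vanishes on `Ip`. -/
theorem Extra_eq_zero_of_tau [NeZero m] [Finite G] (Ip : Subgroup Γ) (τ : Γ)
    (hTI : ∀ c : Γ → ZMod m, IsLocallyConstant (fun σ : Ip => c σ) →
      (∀ σ ∈ Ip, ∀ σ' ∈ Ip, c (σ * σ') = c σ + c σ') → c τ = 0 → ∀ σ ∈ Ip, c σ = 0)
    (F : Γ → G) (hF1 : IsLocallyConstant (fun σ : Ip => F σ))
    (hF2 : ∀ σ ∈ Ip, ∀ σ' ∈ Ip, F (σ * σ') = F σ + F σ') (hF3 : F τ = 0) :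
    ∀ σ ∈ Ip, F σ = 0 := by
  intro σ hσ
  apply eq_of_forall_functional (m := m)
  intro y
  rw [map_zero]
  exact hTI (fun σ => y (F σ)) (hF1.comp y)
    (fun σ hσ σ' hσ' => by rw [hF2 σ hσ σ' hσ', map_add]) (by rw [hF3, map_zero]) σ hσ

omit [TopologicalSpace Γ] [Module (ZMod m) G] in
theorem Extra_dd_mul (Ip : Subgroup Γ) (W : AddSubgroup G)
    (hW1 : ∀ σ ∈ Ip, ∀ w ∈ W, σ • w = w) (hW2 : ∀ σ ∈ Ip, ∀ g : G, σ • g - g ∈ W) (g : G) :
    ∀ σ ∈ Ip, ∀ σ' ∈ Ip, (σ * σ') • g - g = (σ • g - g) + (σ' • g - g) := by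
  intro σ hσ σ' hσ'
  have h := hW1 σ hσ _ (hW2 σ' hσ' g)
  rw [smul_sub] at h
  have h2 : σ • σ' • g = σ' • g - g + σ • g := by rw [← h]; abel
  rw [mul_smul, h2]
  abel

omit [Module (ZMod m) G] in
theorem Extra_dd_cont (Ip : Subgroup Γ) (hcont : ∀ g : G, IsLocallyConstant (fun σ : Γ => σ • g))
    (g : G) : IsLocallyConstant (fun σ : Ip => (σ : Γ) • g - g) :=
  ((hcont g).comp (fun x => x - g)).comp_continuous continuous_subtype_val

/-- AtP: the local condition at `p` up to a bounded exponent ((P) of the plan).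
`W` = the part of `G` on which `Ip` acts trivially and which contains `(σ - 1) G`;
`τ` = a topological generator of the `l`-part of tame inertia ((TI) of the plan). -/
theorem exists_dd_eq_atP [NeZero m] [Finite G] (hl : l.Prime) {r : ℕ} (hm : m = l ^ r)
    (Ip : Subgroup Γ) (W : AddSubgroup G) (τ : Γ) (hτ : τ ∈ Ip)
    (hcont : ∀ g : G, IsLocallyConstant (fun σ : Γ => σ • g))
    (hW1 : ∀ σ ∈ Ip, ∀ w ∈ W, σ • w = w) (hW2 : ∀ σ ∈ Ip, ∀ g : G, σ • g - g ∈ W)
    (hTI : ∀ c : Γ → ZMod m, IsLocallyConstant (fun σ : Ip => c σ) →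
      (∀ σ ∈ Ip, ∀ σ' ∈ Ip, c (σ * σ') = c σ + c σ') → c τ = 0 → ∀ σ ∈ Ip, c σ = 0)
    {c : ℕ} (hc : Nat.card W * Nat.card (inv Ip : AddSubgroup G) ≤ l ^ c * Nat.card G)
    {ξ : Γ → G} (hξ : IsCoc ξ) (hξW : ∀ σ ∈ Ip, ξ σ ∈ W) :
    ∃ g : G, ∀ σ ∈ Ip, l ^ c • ξ σ = σ • g - g := by
  classical
  let T : G →+ G := DistribSMul.toAddMonoidHom G τ - AddMonoidHom.id G
  have hT : ∀ g, T g = τ • g - g := fun _ => rfl
  -- (ii)
  have hker : T.ker = (inv Ip : AddSubgroup G) := by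
    ext g
    constructor
    · intro hg σ hσ
      have h0 := Extra_eq_zero_of_tau Ip τ hTI (fun σ => σ • g - g) (Extra_dd_cont Ip hcont g)
        (Extra_dd_mul Ip W hW1 hW2 g) hg σ hσ
      exact sub_eq_zero.1 h0
    · intro hg
      show T g = 0
      rw [hT, hg τ hτ, sub_self]
  have hrange : T.range ≤ W := by
    rintro _ ⟨g, rfl⟩
    exact hW2 τ hτ g
  have hcardG : Nat.card G = Nat.card T.range * Nat.card (inv Ip : AddSubgroup G) := by
    rw [Extra_card_hom T, hker]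
  -- (iii)
  have hcardW : Nat.card W = Nat.card (W ⧸ T.range.addSubgroupOf W) * Nat.card T.range := by
    rw [AddSubgroup.card_eq_card_quotient_mul_card_addSubgroup (T.range.addSubgroupOf W),
      Nat.card_congr (AddSubgroup.addSubgroupOfEquivOfLe hrange).toEquiv]
  have hQ : Nat.card (W ⧸ T.range.addSubgroupOf W) ≤ l ^ c := by
    rw [hcardW, hcardG] at hc
    have hpos : 0 < Nat.card T.range * Nat.card (inv Ip : AddSubgroup G) :=
      Nat.mul_pos Nat.card_pos Nat.card_pos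
    refine Nat.le_of_mul_le_mul_right ?_ hpos
    calc Nat.card (W ⧸ T.range.addSubgroupOf W) *
          (Nat.card T.range * Nat.card (inv Ip : AddSubgroup G))
        = Nat.card (W ⧸ T.range.addSubgroupOf W) * Nat.card T.range *
          Nat.card (inv Ip : AddSubgroup G) := by ring
      _ ≤ l ^ c * (Nat.card T.range * Nat.card (inv Ip : AddSubgroup G)) := hc
  have hkill : ∀ q : W ⧸ T.range.addSubgroupOf W, l ^ c • q = 0 := by
    intro q
    have h1 : addOrderOf q ∣ l ^ r := by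
      apply addOrderOf_dvd_of_nsmul_eq_zero
      obtain ⟨w, rfl⟩ := QuotientAddGroup.mk_surjective q
      rw [← hm, ← QuotientAddGroup.mk_nsmul]
      have : m • w = 0 := Subtype.ext (Dual_nsmul_eq_zero (m := m) (w : G))
      rw [this, QuotientAddGroup.mk_zero]
    obtain ⟨k, -, hk⟩ := (Nat.dvd_prime_pow hl).1 h1
    have h2 : addOrderOf q ≤ l ^ c :=
      (Nat.le_of_dvd Nat.card_pos (addOrderOf_dvd_natCard q)).trans hQ
    rw [hk] at h2
    have h3 : k ≤ c := (Nat.pow_le_pow_iff_right hl.one_lt).1 h2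
    apply addOrderOf_dvd_iff_nsmul_eq_zero.1
    rw [hk]
    exact pow_dvd_pow l h3
  have hmem : l ^ c • ξ τ ∈ T.range := by
    have h1 := hkill (QuotientAddGroup.mk (⟨ξ τ, hξW τ hτ⟩ : W))
    rw [← QuotientAddGroup.mk_nsmul, QuotientAddGroup.eq_zero_iff] at h1
    exact h1
  obtain ⟨g, hg⟩ := hmem
  rw [hT] at hg
  -- (iv)
  refine ⟨g, fun σ hσ => ?_⟩
  have h0 := Extra_eq_zero_of_tau Ip τ hTI (fun σ => l ^ c • ξ σ - (σ • g - g)) ?_ ?_ ?_ σ hσ
  · exact sub_eq_zero.1 h0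
  · exact ((hξ.1.comp (fun x => l ^ c • x)).comp_continuous continuous_subtype_val).sub
      (Extra_dd_cont Ip hcont g)
  · intro σ hσ σ' hσ'
    rw [hξ.2 σ σ', hW1 σ hσ _ (hξW σ' hσ'), Extra_dd_mul Ip W hW1 hW2 g σ hσ σ' hσ', nsmul_add]
    abel
  · show l ^ c • ξ τ - (τ • g - g) = 0
    rw [hg, sub_self]

end Fermat.Agent.S15.Coh
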