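/-
S15 ABS-B: the uniform bound for `B'` by Frobenius weights: `(u² - 1) Z = 0`, and
`ker (φ - χ(φ))` on `M` is contained in `ker (u - 1)`.
-/
import Fermat.Agent.S15.Coh.Lev
import Fermat.Agent.S15.Coh.Extra

set_option autoImplicit false

namespace Fermat.Agent.S15.Coh

variable {Γ : Type*} [Group Γ] [TopologicalSpace Γ] {l : ℕ} [NeZero l]
  {𝔾 : Type*} [AddCommGroup 𝔾] [DistribMulAction Γ 𝔾] {T : ArithTower Γ l}

namespace Clean

variable (C : Clean T 𝔾) (r : ℕ) [Finite (lev 𝔾 l r)]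

/-- CB0: `χ(φ)` is a unit, so it can be cancelled. -/
theorem chi_smul_cancel (γ : Γ) {x y : lev 𝔾 l r} (h : T.χ r γ • x = T.χ r γ • y) : x = y := by
  have h1 : T.χ r γ⁻¹ * T.χ r γ = 1 := by rw [← map_mul, inv_mul_cancel, map_one]
  have h2 := congrArg (fun w => T.χ r γ⁻¹ • w) h
  simp only [smul_smul, h1, one_smul] at h2
  exact h2

/-- CB1: every element `z` of `Z` satisfies `u (u z) = z`. -/
theorem u_u_of_mem_ZZ {z : lev 𝔾 l r}
    (hz : z ∈ (C.setup r).ZZ) :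
    C.u (C.u (z : 𝔾)) = z := by
  obtain ⟨g, hg⟩ := hz
  obtain ⟨p1, p2, p3, p4⟩ := (C.setup r).valD_props
  have ht : ∀ σ ∈ (C.setup r).Il, ∀ g : lev 𝔾 l r,
      levMap r C.u (σ • g) = σ • levMap r C.u g :=
    fun σ hσ g => Subtype.ext (C.u_comm σ hσ g.1)
  have hzM : z ∈ (C.setup r).M := hg ▸ p2 g
  have h_i : (C.setup r).valD (levMap r C.u g) = levMap r C.u z := by rw [p4 _ ht g, hg]
  have h_ii : (C.setup r).χ (C.setup r).φ • (C.setup r).valD ((C.setup r).φ • g)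
      = (C.setup r).φ • z := by rw [p3 g, hg]
  have h_iii : (C.setup r).valD ((C.setup r).φ • g) = (C.setup r).valD (levMap r C.u g) := by
    have hmem : (C.setup r).φ • g - levMap r C.u g ∈ (C.setup r).M := C.φ_quot g.1
    have h0 := p1 _ hmem
    rw [map_sub, sub_eq_zero] at h0
    exact h0
  rw [h_iii, h_i] at h_ii
  have h2 := congrArg (levMap r C.u) h_ii
  rw [ZMod.map_smul] at h2
  have h3 : levMap r C.u ((C.setup r).φ • z) = (C.setup r).χ (C.setup r).φ • z := by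
    apply Subtype.ext
    rw [lev_zmod_smul]
    exact C.φ_on_M r z.1 hzM z.2
  rw [h3] at h2
  have h4 := chi_smul_cancel (T := T) r T.φ h2
  exact congrArg Subtype.val h4

/-- CB2: every element `x` of `M` with `φ x = χ(φ) x` satisfies `u x = x`. -/
theorem u_of_mem_ker {x : lev 𝔾 l r}
    (hx : x ∈ ((C.setup r).M ⊓ (C.setup r).frobMinus.ker : AddSubgroup (lev 𝔾 l r))) :
    C.u (x : 𝔾) = x := by
  obtain ⟨hxM, hxk⟩ := hx
  have h1 : (C.setup r).φ • x = (C.setup r).χ (C.setup r).φ • x := by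
    have h0 : (C.setup r).frobMinus x = 0 := hxk
    rw [Setup.frobMinus_apply, sub_eq_zero] at h0
    exact h0
  have h3 : levMap r C.u ((C.setup r).φ • x) = (C.setup r).χ (C.setup r).φ • x := by
    apply Subtype.ext
    rw [lev_zmod_smul]
    exact C.φ_on_M r x.1 hxM x.2
  rw [h1, ZMod.map_smul] at h3
  have h4 := chi_smul_cancel (T := T) r T.φ h3
  exact congrArg Subtype.val h4

/-- CB3: the uniform bound for `B'`. -/
theorem card_BB_le :
    Nat.card (C.setup r).BB ≤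
      {x : 𝔾 | C.u (C.u x) = x}.ncard * {x : 𝔾 | C.u (C.u x) = x}.ncard := by
  have hfin : Finite {x : 𝔾 | C.u (C.u x) = x} := C.fin_u.to_subtype
  have h1 : Nat.card (C.setup r).ZZ ≤ {x : 𝔾 | C.u (C.u x) = x}.ncard := by
    rw [← Nat.card_coe_set_eq]
    refine Nat.card_le_card_of_injective
      (fun z : (C.setup r).ZZ => (⟨z.1.1, C.u_u_of_mem_ZZ r z.2⟩ : {x : 𝔾 | C.u (C.u x) = x})) ?_
    intro z z' h
    have h' : (z.1.1 : 𝔾) = z'.1.1 :=
      congrArg (fun w : {x : 𝔾 | C.u (C.u x) = x} => (w.1 : 𝔾)) h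
    exact Subtype.ext (Subtype.ext h')
  have h2 : Nat.card ((C.setup r).M ⊓ (C.setup r).frobMinus.ker : AddSubgroup (lev 𝔾 l r))
      ≤ {x : 𝔾 | C.u (C.u x) = x}.ncard := by
    rw [← Nat.card_coe_set_eq]
    refine Nat.card_le_card_of_injective
      (fun z : ((C.setup r).M ⊓ (C.setup r).frobMinus.ker : AddSubgroup (lev 𝔾 l r)) =>
        (⟨z.1.1, by
          show C.u (C.u z.1.1) = z.1.1
          rw [C.u_of_mem_ker r z.2, C.u_of_mem_ker r z.2]⟩ : {x : 𝔾 | C.u (C.u x) = x})) ?_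
    intro z z' h
    have h' : (z.1.1 : 𝔾) = z'.1.1 :=
      congrArg (fun w : {x : 𝔾 | C.u (C.u x) = x} => (w.1 : 𝔾)) h
    exact Subtype.ext (Subtype.ext h')
  exact le_trans (C.setup r).card_BB_le (Nat.mul_le_mul h1 h2)

end Clean

end Fermat.Agent.S15.Coh
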