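/-
S15-COH: counting lemmas for (possibly a priori infinite) subgroups.
-/
import Mathlib

set_option autoImplicit false

namespace Fermat.Agent.S15.Coh

variable {X P T : Type*} [AddCommGroup X] [AddCommGroup P] [AddCommGroup T]

/-- a group is finite if the kernel and the range of a homomorphism are. -/
theorem count_aux_hom {S Q : Type*} [AddCommGroup S] [AddCommGroup Q] (φ : S →+ Q)
    [Finite φ.ker] [Finite φ.range] :
    Finite S ∧ Nat.card S = Nat.card φ.range * Nat.card φ.ker := by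
  have e1 : S ⧸ φ.ker ≃ φ.range := (QuotientAddGroup.quotientKerEquivRange φ).toEquiv
  have : Finite (S ⧸ φ.ker) := Finite.of_equiv _ e1.symm
  refine ⟨Finite.of_equiv _ (AddSubgroup.addGroupEquivQuotientProdAddSubgroup (s := φ.ker)).symm, ?_⟩
  rw [AddSubgroup.card_eq_card_quotient_mul_card_addSubgroup φ.ker, Nat.card_congr e1]

/-- the restriction to `S` of a map which is additive on `S`. -/
def count_aux_res (S : AddSubgroup X) (f : X → P)
    (hadd : ∀ s ∈ S, ∀ t ∈ S, f (s + t) = f s + f t) : S →+ P :=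
  AddMonoidHom.mk' (fun s => f s) (fun s t => hadd s s.2 t t.2)

theorem count_aux_res_apply (S : AddSubgroup X) (f : X → P)
    (hadd : ∀ s ∈ S, ∀ t ∈ S, f (s + t) = f s + f t) (s : S) :
    count_aux_res S f hadd s = f s := rfl

/-- a subgroup of `S` all of whose elements lie in the finite subgroup `K`. -/
theorem count_aux_le (S K : AddSubgroup X) [Finite K] (H : AddSubgroup S)
    (h : ∀ s ∈ H, (s : X) ∈ K) : Finite H ∧ Nat.card H ≤ Nat.card K := by
  let i : H → K := fun s => ⟨(s : S), h s s.2⟩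
  have hi : Function.Injective i := by
    intro s t hst
    apply Subtype.ext
    apply Subtype.ext
    exact congrArg (fun k : K => (k : X)) hst
  exact ⟨Finite.of_injective i hi, Nat.card_le_card_of_injective i hi⟩

/-- `S / (S ∩ f⁻¹ A') ↪ A / A'`. -/
theorem count_comap (S K : AddSubgroup X) (f : X → P)
    (hadd : ∀ s ∈ S, ∀ t ∈ S, f (s + t) = f s + f t)
    (A A' : AddSubgroup P) [Finite A] (hAA' : A' ≤ A) (hfA : ∀ s ∈ S, f s ∈ A)
    [Finite K] (hK : ∀ s ∈ S, f s ∈ A' → s ∈ K) :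
    Finite S ∧ Nat.card S * Nat.card A' ≤ Nat.card A * Nat.card K := by
  let φ : S →+ A := (count_aux_res S f hadd).codRestrict A (fun s => hfA s s.2)
  let ψ : S →+ A ⧸ A'.addSubgroupOf A := (QuotientAddGroup.mk' (A'.addSubgroupOf A)).comp φ
  have hker : ∀ s ∈ ψ.ker, (s : X) ∈ K := by
    intro s hs
    rw [AddMonoidHom.mem_ker] at hs
    have h1 : φ s ∈ A'.addSubgroupOf A := (QuotientAddGroup.eq_zero_iff _).1 hs
    rw [AddSubgroup.mem_addSubgroupOf] at h1
    exact hK s s.2 h1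
  obtain ⟨hfin, hcard⟩ := count_aux_le S K ψ.ker hker
  obtain ⟨hS, hSc⟩ := count_aux_hom ψ
  refine ⟨hS, ?_⟩
  have h2 : Nat.card ψ.range ≤ Nat.card (A ⧸ A'.addSubgroupOf A) :=
    Nat.card_le_card_of_injective _ Subtype.val_injective
  have h3 : Nat.card A = Nat.card (A ⧸ A'.addSubgroupOf A) * Nat.card A' := by
    rw [AddSubgroup.card_eq_card_quotient_mul_card_addSubgroup (A'.addSubgroupOf A),
      Nat.card_congr (AddSubgroup.addSubgroupOfEquivOfLe hAA').toEquiv]
  rw [hSc, h3]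
  calc Nat.card ψ.range * Nat.card ψ.ker * Nat.card A'
      ≤ Nat.card (A ⧸ A'.addSubgroupOf A) * Nat.card K * Nat.card A' :=
        Nat.mul_le_mul_right _ (Nat.mul_le_mul h2 hcard)
    _ = Nat.card (A ⧸ A'.addSubgroupOf A) * Nat.card A' * Nat.card K := by ring

/-- the fibres of an additive map are cosets of the kernel. -/
theorem count_fibres (S K : AddSubgroup X) (e : X → T)
    (hadd : ∀ s ∈ S, ∀ t ∈ S, e (s + t) = e s + e t)
    (E : Set T) (hE : E.Finite) (heE : ∀ s ∈ S, e s ∈ E)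
    [Finite K] (hK : ∀ s ∈ S, e s = 0 → s ∈ K) :
    Finite S ∧ Nat.card S ≤ E.ncard * Nat.card K := by
  let φ : S →+ T := count_aux_res S e hadd
  have hker : ∀ s ∈ φ.ker, (s : X) ∈ K := by
    intro s hs
    rw [AddMonoidHom.mem_ker] at hs
    exact hK s s.2 hs
  obtain ⟨hfin, hcard⟩ := count_aux_le S K φ.ker hker
  have hsub : (φ.range : Set T) ⊆ E := by
    rintro _ ⟨s, rfl⟩
    exact heE s s.2
  have hrfin : Finite φ.range := (hE.subset hsub).to_subtype
  obtain ⟨hS, hSc⟩ := count_aux_hom φ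
  refine ⟨hS, ?_⟩
  have h2 : Nat.card φ.range ≤ E.ncard := by
    have : Nat.card φ.range = (φ.range : Set T).ncard := Nat.card_coe_set_eq _
    rw [this]
    exact Set.ncard_le_ncard hsub hE
  rw [hSc]
  exact Nat.mul_le_mul h2 hcard

/-- the two previous lemmas combined. -/
theorem count_step (S K : AddSubgroup X) (f : X → P) (e : X → T)
    (hfadd : ∀ s ∈ S, ∀ t ∈ S, f (s + t) = f s + f t)
    (headd : ∀ s ∈ S, ∀ t ∈ S, e (s + t) = e s + e t)
    (A A' : AddSubgroup P) [Finite A] (hAA' : A' ≤ A) (hfA : ∀ s ∈ S, f s ∈ A)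
    (E : Set T) (hE : E.Finite) (heE : ∀ s ∈ S, f s ∈ A' → e s ∈ E)
    [Finite K] (hK : ∀ s ∈ S, f s ∈ A' → e s = 0 → s ∈ K) :
    Finite S ∧ Nat.card S * Nat.card A' ≤ Nat.card A * (E.ncard * Nat.card K) := by
  let S₂ : AddSubgroup X := (A'.comap (count_aux_res S f hfadd)).map S.subtype
  have hmem : ∀ x, x ∈ S₂ ↔ x ∈ S ∧ f x ∈ A' := by
    intro x
    constructor
    · rintro ⟨s, hs, rfl⟩
      exact ⟨s.2, hs⟩
    · rintro ⟨hx, hfx⟩
      exact ⟨⟨x, hx⟩, hfx, rfl⟩
  obtain ⟨hfin₂, hcard₂⟩ := count_fibres S₂ K e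
    (fun s hs t ht => headd s ((hmem s).1 hs).1 t ((hmem t).1 ht).1) E hE
    (fun s hs => heE s ((hmem s).1 hs).1 ((hmem s).1 hs).2)
    (fun s hs h0 => hK s ((hmem s).1 hs).1 ((hmem s).1 hs).2 h0)
  obtain ⟨hS, hSc⟩ := count_comap S S₂ f hfadd A A' hAA' hfA
    (fun s hs hfs => (hmem s).2 ⟨hs, hfs⟩)
  exact ⟨hS, hSc.trans (Nat.mul_le_mul_left _ hcard₂)⟩

end Fermat.Agent.S15.Coh
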