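/-
S15-COH, one step of the descent, part A: pure group theory (St1, St9, St10).
-/
import Fermat.Agent.S15.Coh.Sub

set_option autoImplicit false

namespace Fermat.Agent.S15.Coh

/-- relative index from the two cardinalities. -/
theorem StepA_relIndex {G : Type*} [AddCommGroup G] [Finite G] {l : ℕ} {H' H : AddSubgroup G}
    (hle : H' ≤ H) (hcard : Nat.card H = l * Nat.card H') : H'.relIndex H = l := by
  have h1 : Nat.card (H'.addSubgroupOf H) * (H'.addSubgroupOf H).index = Nat.card H :=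
    AddSubgroup.card_mul_index _
  have h2 : Nat.card (H'.addSubgroupOf H) = Nat.card H' :=
    Nat.card_congr (AddSubgroup.addSubgroupOfEquivOfLe hle).toEquiv
  have h3 : 0 < Nat.card H' := Nat.card_pos
  rw [h2, hcard, mul_comm] at h1
  exact Nat.eq_of_mul_eq_mul_right h3 h1

/-- cardinality from the relative index. -/
theorem StepA_card_of_relIndex {G : Type*} [AddCommGroup G] {H' H : AddSubgroup G}
    (hle : H' ≤ H) : Nat.card H = H'.relIndex H * Nat.card H' := by
  have h1 : Nat.card (H'.addSubgroupOf H) * (H'.addSubgroupOf H).index = Nat.card H :=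
    AddSubgroup.card_mul_index _
  have h2 : Nat.card (H'.addSubgroupOf H) = Nat.card H' :=
    Nat.card_congr (AddSubgroup.addSubgroupOfEquivOfLe hle).toEquiv
  rw [h2, mul_comm] at h1
  exact h1.symm

variable {Γ : Type*} [Group Γ] [TopologicalSpace Γ] {l m : ℕ}
  {G : Type*} [AddCommGroup G] [DistribMulAction Γ G] [Module (ZMod m) G]

namespace Setup

variable (D : Setup Γ G l m) [NeZero m] [Finite G]

/-- St1: a functional on `G` cutting out `H'` inside `H`. -/
theorem exists_lambda (hl : l.Prime) {H' H : AddSubgroup G} (hS : D.Step H' H) :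
    ∃ lam : G →+ ZMod m, (∀ h ∈ H, lam h = 0 ↔ h ∈ H') ∧ (∀ h ∈ H, l • lam h = 0) := by
  have hrel : H'.relIndex H = l := StepA_relIndex hS.le hS.card
  have hnle : ¬ H ≤ H' := by
    intro hle
    have := AddSubgroup.relIndex_eq_one.2 hle
    rw [hrel] at this
    exact hl.one_lt.ne' this
  obtain ⟨h0, h0H, h0H'⟩ := SetLike.not_le_iff_exists.1 hnle
  obtain ⟨y, hy, hy0⟩ := exists_functional_of_not_mem (m := m) H' h0H'
  have hle : H' ≤ y.ker := fun h hh => hy h hh
  -- the index of `ker y` in `H` divides `l` and is not one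
  have hdvd : y.ker.relIndex H ∣ l := hrel ▸ AddSubgroup.relIndex_dvd_of_le_left H hle
  have hne1 : y.ker.relIndex H ≠ 1 := by
    intro h1
    exact hy0 (AddSubgroup.relIndex_eq_one.1 h1 h0H)
  have hker : y.ker.relIndex H = l := ((Nat.dvd_prime hl).1 hdvd).resolve_left hne1
  -- `H' = H ⊓ ker y`
  have hK : H' = y.ker ⊓ H := by
    have hleK : H' ≤ y.ker ⊓ H := le_inf hle hS.le
    refine AddSubgroup.eq_of_le_of_card_ge hleK ?_
    have h1 : Nat.card H = (y.ker ⊓ H).relIndex H * Nat.card (y.ker ⊓ H : AddSubgroup G) :=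
      StepA_card_of_relIndex inf_le_right
    rw [AddSubgroup.inf_relIndex_right, hker, hS.card] at h1
    exact (Nat.eq_of_mul_eq_mul_left hl.pos h1).ge
  refine ⟨y, fun h hh => ⟨fun h0 => ?_, fun h' => hy h h'⟩, fun h hh => ?_⟩
  · rw [hK]; exact ⟨h0, hh⟩
  · have hc : Nat.card (H.map y) = l := by rw [← AddSubgroup.relIndex_ker, hker]
    have hmem : y h ∈ H.map y := ⟨h, hh, rfl⟩
    have := card_nsmul_eq_zero' (G := H.map y) (x := ⟨y h, hmem⟩)
    rw [hc] at this
    exact congrArg Subtype.val this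

/-- St9: in the multiplicative case `|H ∩ M| = l |H' ∩ M|`. -/
theorem card_inf_M_of_mu (hl : l.Prime) {H' H : AddSubgroup G} (hS : D.Step H' H)
    (hmu : ¬ H ⊓ D.M ≤ H') :
    Nat.card (H ⊓ D.M : AddSubgroup G) = l * Nat.card (H' ⊓ D.M : AddSubgroup G) := by
  have hrel : H'.relIndex H = l := StepA_relIndex hS.le hS.card
  have hle : H' ⊓ D.M ≤ H ⊓ D.M := inf_le_inf_right _ hS.le
  rw [StepA_card_of_relIndex hle]
  congr 1
  have e : H' ⊓ D.M = H' ⊓ (H ⊓ D.M) := by
    rw [← inf_assoc, inf_eq_left.2 hS.le]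
  rw [e, AddSubgroup.inf_relIndex_right]
  -- `H'.relIndex (H ⊓ M)` divides `H'.relIndex H = l`
  have hdvd : H'.relIndex (H ⊓ D.M) ∣ l := by
    have h1 : (H'.addSubgroupOf H).relIndex ((H ⊓ D.M).addSubgroupOf H) ∣
        (H'.addSubgroupOf H).index := AddSubgroup.relIndex_dvd_index_of_normal _ _
    rw [AddSubgroup.relIndex_addSubgroupOf inf_le_left] at h1
    exact hrel ▸ h1
  exact ((Nat.dvd_prime hl).1 hdvd).resolve_left fun h1 => hmu (AddSubgroup.relIndex_eq_one.1 h1)

/-- St10: in the étale case `H ∩ M = H' ∩ M` and `B' ∩ H = B' ∩ H'`. -/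
theorem inf_eq_of_et {H' H : AddSubgroup G} (hS : D.Step H' H) (het : H ⊓ D.M ≤ H') :
    H ⊓ D.M = H' ⊓ D.M ∧ D.BB ⊓ H = D.BB ⊓ H' := by
  have h1 : H ⊓ D.M = H' ⊓ D.M :=
    le_antisymm (le_inf het inf_le_right) (inf_le_inf_right _ hS.le)
  refine ⟨h1, le_antisymm (le_inf inf_le_left ?_) (inf_le_inf_left _ hS.le)⟩
  intro x hx
  exact het ⟨hx.2, hx.1.1⟩

end Setup

end Fermat.Agent.S15.Coh
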