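/-
S15-COH, one step of the descent, part B: the maps `(ξ, g) ↦ (g, val ξ)` and `ξ ↦ lam ∘ ξ`
(St2, St2', St3, St8).
-/
import Fermat.Agent.S15.Coh.Sub
import Fermat.Agent.S15.Coh.ValFrob

set_option autoImplicit false

namespace Fermat.Agent.S15.Coh

variable {Γ : Type*} [Group Γ] [TopologicalSpace Γ] {l m : ℕ}
  {G : Type*} [AddCommGroup G] [DistribMulAction Γ G] [Module (ZMod m) G]

namespace Setup

variable (D : Setup Γ G l m) [NeZero m] [Finite G]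

/-- St2: the map `(ξ, g) ↦ (g, val ξ)` on `S~(H)` takes values in `A(H) × (B' ∩ H)`. -/
theorem selPair_map_mem {H : AddSubgroup G} {x : (Γ → G) × G} (hx : x ∈ D.selPair H) :
    (x.2, D.val x.1) ∈ (D.AA H).prod (D.BB ⊓ H) := by
  obtain ⟨hcoc, hH, hU, hIl, hIp⟩ := hx
  have hloc : D.IsLocCoc x.1 := D.isLocCoc_of_isCoc hcoc hIl
  refine AddSubgroup.mem_prod.mpr ⟨fun σ hσ => ?_, ⟨?_, D.val_mem hloc H (fun σ _ => hH σ)⟩⟩
  · rw [← hIp σ hσ]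
    exact hH σ
  · refine D.mem_BB.mpr ⟨D.val_mem hloc D.M hIl, D.χ D.φ • x.1 D.φ, ?_⟩
    rw [ZMod.map_smul, D.valD_apply, D.val_frob hcoc hIl]

/-- St2': the map `(ξ, g) ↦ (g, val ξ)` is additive on `S~(H)`. -/
theorem selPair_map_add {H : AddSubgroup G} {x x' : (Γ → G) × G} (hx : x ∈ D.selPair H)
    (hx' : x' ∈ D.selPair H) :
    ((x + x').2, D.val (x + x').1) = (x.2, D.val x.1) + (x'.2, D.val x'.1) := by
  have hloc : D.IsLocCoc x.1 := D.isLocCoc_of_isCoc hx.1 hx.2.2.2.1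
  have hloc' : D.IsLocCoc x'.1 := D.isLocCoc_of_isCoc hx'.1 hx'.2.2.2.1
  rw [Prod.fst_add, Prod.snd_add, D.val_add hloc hloc', Prod.mk_add_mk]

/-- St3: `lam ∘ ξ` is a continuous cocycle, twisted by `1` or `χ`, killed by `l`, vanishing on `U`
and (if `g ∈ A(H')`) on `Ip`. -/
theorem lam_comp_props {H' H : AddSubgroup G} (lam : G →+ ZMod m)
    (h1 : ∀ h ∈ H, lam h = 0 ↔ h ∈ H') (h2 : ∀ h ∈ H, l • lam h = 0)
    {x : (Γ → G) × G} (hx : x ∈ D.selPair H) (hxA : x.2 ∈ D.AA H') :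
    IsLocallyConstant (fun σ => lam (x.1 σ)) ∧ (∀ σ, l • lam (x.1 σ) = 0) ∧
      (∀ σ ∈ D.Ip, lam (x.1 σ) = 0) ∧ (∀ σ ∈ D.U, lam (x.1 σ) = 0) := by
  obtain ⟨hcoc, hH, hU, hIl, hIp⟩ := hx
  refine ⟨hcoc.1.comp lam, fun σ => h2 _ (hH σ), fun σ hσ => ?_, fun σ hσ => ?_⟩
  · rw [h1 _ (hH σ), hIp σ hσ]
    exact hxA σ hσ
  · rw [hU σ hσ, map_zero]

/-- St8: kernel of `ξ ↦ lam ∘ ξ`. -/
theorem mem_selPair_of_lam_comp_eq_zero {H' H : AddSubgroup G}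
    (lam : G →+ ZMod m) (h1 : ∀ h ∈ H, lam h = 0 ↔ h ∈ H')
    {x : (Γ → G) × G} (hx : x ∈ D.selPair H) (h0 : (fun σ => lam (x.1 σ)) = 0) :
    x ∈ D.selPair H' := by
  obtain ⟨hcoc, hH, hU, hIl, hIp⟩ := hx
  exact ⟨hcoc, fun σ => (h1 _ (hH σ)).mp (congrFun h0 σ), hU, hIl, hIp⟩

end Setup

end Fermat.Agent.S15.Coh
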