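/-
S15-COH, one step of the descent, part C: étale / multiplicative type (St4 - St7).
-/
import Fermat.Agent.S15.Coh.StepB

set_option autoImplicit false

namespace Fermat.Agent.S15.Coh

variable {Γ : Type*} [Group Γ] [TopologicalSpace Γ] {l m : ℕ}
  {G : Type*} [AddCommGroup G] [DistribMulAction Γ G] [Module (ZMod m) G]

namespace Setup

variable (D : Setup Γ G l m) [NeZero m] [Finite G]

omit [TopologicalSpace Γ] [DistribMulAction Γ G] [Finite G] in
/-- a `ZMod m`-multiple is a natural multiple. -/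
theorem stepC_zmod_smul_mem (H : AddSubgroup G) (c : ZMod m) {h : G} (hh : h ∈ H) :
    c • h ∈ H := by
  have e : c • h = c.val • h := by
    rw [← Nat.cast_smul_eq_nsmul (ZMod m), ZMod.natCast_zmod_val]
  rw [e]
  exact H.nsmul_mem hh _

omit [NeZero m] [Finite G] in
theorem stepC_lam_smul_chi {H' H : AddSubgroup G} (hS : D.Step H' H)
    (lam : G →+ ZMod m) (h1 : ∀ h ∈ H, lam h = 0 ↔ h ∈ H')
    (hact : ∀ γ : Γ, ∀ h ∈ H, γ • h - D.χ γ • h ∈ H') (γ : Γ) {h : G} (hh : h ∈ H) :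
    lam (γ • h) = D.χ γ * lam h := by
  have h3 := (h1 _ (hS.le (hact γ h hh))).2 (hact γ h hh)
  rw [map_sub, sub_eq_zero, ZMod.map_smul, smul_eq_mul] at h3
  exact h3

/-- St4 (étale type): the action on `H/H'` is trivial, in the form needed. -/
theorem lam_smul_of_et {H' H : AddSubgroup G} (hS : D.Step H' H) (het : H ⊓ D.M ≤ H')
    (lam : G →+ ZMod m) (h1 : ∀ h ∈ H, lam h = 0 ↔ h ∈ H') (h2 : ∀ h ∈ H, l • lam h = 0)
    (γ : Γ) {h : G} (hh : h ∈ H) : lam (γ • h) = lam h := by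
  rcases hS.act with hact | hact
  · have h3 := (h1 _ (hS.le (hact γ h hh))).2 (hact γ h hh)
    rw [map_sub, sub_eq_zero] at h3
    exact h3
  · have key : ∀ (g : Γ) (k : G), k ∈ H → lam (g • k) = D.χ g * lam k :=
      fun g k hk => stepC_lam_smul_chi D hS lam h1 hact g hk
    rw [key γ h hh]
    rcases D.omega with hom | ⟨s, hs, hom⟩
    · exact hom γ _ (h2 h hh)
    · have hsH : s • h ∈ H := by
        have := H.add_mem (hS.le (hact s h hh)) (stepC_zmod_smul_mem H (D.χ s) hh)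
        rwa [sub_add_cancel] at this
      have h3 : s • h - h ∈ H' := het ⟨H.sub_mem hsH hh, D.Il_quot s hs h⟩
      have h4 := (h1 _ (hS.le h3)).2 h3
      rw [map_sub, sub_eq_zero, key s h hh] at h4
      rw [hom _ (h2 h hh) h4, mul_zero]

/-- St5 (multiplicative type): the action on `H/H'` is by `χ`, in the form needed. -/
theorem lam_smul_of_mu {H' H : AddSubgroup G} (hS : D.Step H' H) (hmu : ¬ H ⊓ D.M ≤ H')
    (lam : G →+ ZMod m) (h1 : ∀ h ∈ H, lam h = 0 ↔ h ∈ H') (h2 : ∀ h ∈ H, l • lam h = 0)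
    (γ : Γ) {h : G} (hh : h ∈ H) : lam (γ • h) = D.χ γ * lam h := by
  rcases hS.act with hact | hact
  · have key : ∀ (g : Γ) (k : G), k ∈ H → lam (g • k) = lam k := by
      intro g k hk
      have h3 := (h1 _ (hS.le (hact g k hk))).2 (hact g k hk)
      rw [map_sub, sub_eq_zero] at h3
      exact h3
    rw [key γ h hh]
    rcases D.omega with hom | ⟨s, hs, hom⟩
    · exact (hom γ _ (h2 h hh)).symm
    · exfalso
      apply hmu
      intro k hk
      have h3 := key s k hk.1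
      rw [D.Il_M s hs k hk.2, ZMod.map_smul, smul_eq_mul] at h3
      exact (h1 k hk.1).1 (hom _ (h2 k hk.1) h3)
  · exact stepC_lam_smul_chi D hS lam h1 hact γ hh

/-- St6 (étale type): `lam ∘ ξ = 0`. -/
theorem lam_comp_eq_zero_of_et {H' H : AddSubgroup G} (hS : D.Step H' H) (het : H ⊓ D.M ≤ H')
    (lam : G →+ ZMod m) (h1 : ∀ h ∈ H, lam h = 0 ↔ h ∈ H') (h2 : ∀ h ∈ H, l • lam h = 0)
    {x : (Γ → G) × G} (hx : x ∈ D.selPair H) (hxA : x.2 ∈ D.AA H') :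
    (fun σ => lam (x.1 σ)) = 0 := by
  obtain ⟨p1, p2, p3, p4⟩ := D.lam_comp_props lam h1 h2 hx hxA
  obtain ⟨hcoc, hH, -, hM, -⟩ := hx
  funext σ
  refine D.B1 (fun σ => lam (x.1 σ)) p1 (fun σ τ => ?_) p2 p3 (fun σ hσ => ?_) p4 σ
  · show lam (x.1 (σ * τ)) = lam (x.1 σ) + lam (x.1 τ)
    rw [hcoc.2 σ τ, map_add, D.lam_smul_of_et hS het lam h1 h2 σ (hH τ)]
  · exact (h1 _ (hH σ)).2 (het ⟨hH σ, hM σ hσ⟩)

/-- St7 (multiplicative type): `lam ∘ ξ` is strict. -/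
theorem lam_comp_isStrict_of_mu {H' H : AddSubgroup G} (hS : D.Step H' H)
    (hmu : ¬ H ⊓ D.M ≤ H')
    (lam : G →+ ZMod m) (h1 : ∀ h ∈ H, lam h = 0 ↔ h ∈ H') (h2 : ∀ h ∈ H, l • lam h = 0)
    {x : (Γ → G) × G} (hx : x ∈ D.selPair H) (hxA : x.2 ∈ D.AA H') (hxB : D.val x.1 ∈ H') :
    IsStrict l D.χ D.Ip D.U D.v (fun σ => lam (x.1 σ)) := by
  obtain ⟨p1, p2, p3, p4⟩ := D.lam_comp_props lam h1 h2 hx hxA
  obtain ⟨hcoc, hH, -, hM, -⟩ := hx
  refine ⟨p1, fun σ τ => ?_, p2, p3, p4, ?_⟩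
  · show lam (x.1 (σ * τ)) = lam (x.1 σ) + D.χ σ * lam (x.1 τ)
    rw [hcoc.2 σ τ, map_add, D.lam_smul_of_mu hS hmu lam h1 h2 σ (hH τ)]
  · rw [← D.val_spec (D.isLocCoc_of_isCoc hcoc hM) lam]
    exact (h1 _ (hS.le hxB)).2 hxB

end Setup

end Fermat.Agent.S15.Coh
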