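/-
S15-COH, one step of the descent: the counting inequality and the inductive step (St11, St12).
-/
import Fermat.Agent.S15.Coh.StepA
import Fermat.Agent.S15.Coh.StepC
import Fermat.Agent.S15.Coh.Count

set_option autoImplicit false

namespace Fermat.Agent.S15.Coh

variable {Γ : Type*} [Group Γ] [TopologicalSpace Γ] {l m : ℕ}
  {G : Type*} [AddCommGroup G] [DistribMulAction Γ G] [Module (ZMod m) G]

namespace Setup

variable (D : Setup Γ G l m) [NeZero m] [Finite G]

/-- the quantity bounding `|S~(H)|` -/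
noncomputable def bound (H : AddSubgroup G) : ℕ :=
  Nat.card (D.AA H) * Nat.card (D.BB ⊓ H : AddSubgroup G) * Nat.card (H ⊓ D.M : AddSubgroup G)

open Classical in
/-- St11: the counting inequality of one step, with `ε = 1` (étale) or `l` (multiplicative). -/
theorem step_count (hl : l.Prime) {H' H : AddSubgroup G} (hS : D.Step H' H)
    (hfin : Finite (D.selPair H')) :
    Finite (D.selPair H) ∧
      Nat.card (D.selPair H) *
          (Nat.card (D.AA H') * Nat.card (D.BB ⊓ H' : AddSubgroup G)) ≤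
        (Nat.card (D.AA H) * Nat.card (D.BB ⊓ H : AddSubgroup G)) *
          ((if H ⊓ D.M ≤ H' then 1 else l) * Nat.card (D.selPair H')) := by
  obtain ⟨lam, h1, h2⟩ := D.exists_lambda hl hS
  have hAA : D.AA H' ≤ D.AA H := fun g hg σ hσ => hS.le (hg σ hσ)
  have hA : (D.AA H').prod (D.BB ⊓ H') ≤ (D.AA H).prod (D.BB ⊓ H) :=
    AddSubgroup.prod_mono hAA (inf_le_inf_left _ hS.le)
  have hcard : ∀ A B : AddSubgroup G, Nat.card (A.prod B) = Nat.card A * Nat.card B :=
    fun A B => by
      rw [Nat.card_congr (AddSubgroup.prodEquiv A B).toEquiv, Nat.card_prod]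
  by_cases het : H ⊓ D.M ≤ H'
  · have key := count_step (D.selPair H) (D.selPair H')
      (fun x : (Γ → G) × G => ((x.2, D.val x.1) : G × G))
      (fun x : (Γ → G) × G => (fun s => lam (x.1 s) : Γ → ZMod m))
      (fun s hs t ht => D.selPair_map_add hs ht)
      (fun s _ t _ => by funext σ; simp)
      ((D.AA H).prod (D.BB ⊓ H)) ((D.AA H').prod (D.BB ⊓ H')) hA
      (fun s hs => D.selPair_map_mem hs)
      {0} (Set.finite_singleton 0)
      (fun s hs hs' => D.lam_comp_eq_zero_of_et hS het lam h1 h2 hs hs'.1)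
      (fun s hs _ h0 => D.mem_selPair_of_lam_comp_eq_zero lam h1 hs h0)
    refine ⟨key.1, ?_⟩
    have h := key.2
    rw [hcard, hcard, Set.ncard_singleton] at h
    rw [if_pos het]
    exact h
  · have key := count_step (D.selPair H) (D.selPair H')
      (fun x : (Γ → G) × G => ((x.2, D.val x.1) : G × G))
      (fun x : (Γ → G) × G => (fun s => lam (x.1 s) : Γ → ZMod m))
      (fun s hs t ht => D.selPair_map_add hs ht)
      (fun s _ t _ => by funext σ; simp)
      ((D.AA H).prod (D.BB ⊓ H)) ((D.AA H').prod (D.BB ⊓ H')) hA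
      (fun s hs => D.selPair_map_mem hs)
      {c | IsStrict l D.χ D.Ip D.U D.v c} D.B2.1
      (fun s hs hs' => D.lam_comp_isStrict_of_mu hS het lam h1 h2 hs hs'.1 hs'.2.2)
      (fun s hs _ h0 => D.mem_selPair_of_lam_comp_eq_zero lam h1 hs h0)
    refine ⟨key.1, ?_⟩
    have h := key.2
    rw [hcard, hcard] at h
    rw [if_neg het]
    exact h.trans (Nat.mul_le_mul_left _ (Nat.mul_le_mul_right _ D.B2.2))

/-- St12: the inductive step. -/
theorem step_main (hl : l.Prime) {H' H : AddSubgroup G} (hS : D.Step H' H)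
    (hfin : Finite (D.selPair H')) (hle : Nat.card (D.selPair H') ≤ D.bound H') :
    Finite (D.selPair H) ∧ Nat.card (D.selPair H) ≤ D.bound H := by
  classical
  obtain ⟨hF, hc⟩ := D.step_count hl hS hfin
  refine ⟨hF, ?_⟩
  have hpos : 0 < Nat.card (D.AA H') * Nat.card (D.BB ⊓ H' : AddSubgroup G) :=
    Nat.mul_pos Nat.card_pos Nat.card_pos
  have hε : (if H ⊓ D.M ≤ H' then 1 else l) * Nat.card (H' ⊓ D.M : AddSubgroup G) =
      Nat.card (H ⊓ D.M : AddSubgroup G) := by
    by_cases het : H ⊓ D.M ≤ H'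
    · rw [if_pos het, one_mul, (D.inf_eq_of_et hS het).1]
    · rw [if_neg het, D.card_inf_M_of_mu hl hS het]
  refine Nat.le_of_mul_le_mul_right (hc.trans ?_) hpos
  unfold bound at hle ⊢
  rw [← hε]
  calc (Nat.card (D.AA H) * Nat.card (D.BB ⊓ H : AddSubgroup G)) *
          ((if H ⊓ D.M ≤ H' then 1 else l) * Nat.card (D.selPair H'))
      ≤ (Nat.card (D.AA H) * Nat.card (D.BB ⊓ H : AddSubgroup G)) *
          ((if H ⊓ D.M ≤ H' then 1 else l) *
            (Nat.card (D.AA H') * Nat.card (D.BB ⊓ H' : AddSubgroup G) *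
              Nat.card (H' ⊓ D.M : AddSubgroup G))) :=
        Nat.mul_le_mul_left _ (Nat.mul_le_mul_left _ hle)
    _ = _ := by ring

end Setup

end Fermat.Agent.S15.Coh
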