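/-
S15-COH: the main theorem of the abstract descent (cocycle form), Ma1 - Ma5.
-/
import Fermat.Agent.S15.Coh.Step

set_option autoImplicit false

namespace Fermat.Agent.S15.Coh

variable {Γ : Type*} [Group Γ] [TopologicalSpace Γ] {l m : ℕ}
  {G : Type*} [AddCommGroup G] [DistribMulAction Γ G] [Module (ZMod m) G]

namespace Setup

variable (D : Setup Γ G l m) [NeZero m] [Finite G]

/-- Ma1 -/
theorem selPair_bot : Finite (D.selPair ⊥) ∧ Nat.card (D.selPair ⊥) ≤ D.bound ⊥ := by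
  let f : D.selPair ⊥ → D.AA ⊥ := fun x => ⟨x.1.2, fun σ hσ => by
    rw [← x.2.2.2.2.2 σ hσ]
    exact x.2.2.1 σ⟩
  have hf : Function.Injective f := by
    intro x y hxy
    have h2 : x.1.2 = y.1.2 := congrArg Subtype.val hxy
    have h1 : x.1.1 = y.1.1 := by
      funext σ
      rw [(AddSubgroup.mem_bot).1 (x.2.2.1 σ), (AddSubgroup.mem_bot).1 (y.2.2.1 σ)]
    exact Subtype.ext (Prod.ext h1 h2)
  refine ⟨Finite.of_injective f hf, ?_⟩
  have hb : D.bound ⊥ = Nat.card (D.AA ⊥) := by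
    unfold bound
    rw [inf_bot_eq, bot_inf_eq, AddSubgroup.card_bot, mul_one, mul_one]
  rw [hb]
  exact Nat.card_le_card_of_injective f hf

/-- Ma2: induction along the filtration. -/
theorem card_selPair_le (hl : l.Prime) {H : AddSubgroup G} (hF : D.Filt H) :
    Finite (D.selPair H) ∧ Nat.card (D.selPair H) ≤ D.bound H := by
  induction hF with
  | bot => exact D.selPair_bot
  | step _ hS ih => exact D.step_main hl hS ih.1 ih.2

/-- Ma3 -/
theorem AA_bot : D.AA ⊥ = inv D.Ip := by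
  ext g
  show (∀ σ ∈ D.Ip, σ • g - g ∈ (⊥ : AddSubgroup G)) ↔ ∀ σ ∈ D.Ip, σ • g = g
  simp only [AddSubgroup.mem_bot, sub_eq_zero]

/-- the first projection `S~(⊤) → Sel`. -/
def Main_toSel (x : D.selPair ⊤) : D.sel :=
  ⟨x.1.1, x.2.1, x.2.2.2.1, x.2.2.2.2.1, x.1.2, x.2.2.2.2.2⟩

/-- Ma4: `S~(⊤) → Sel` is onto with kernel `G^{Ip}`. -/
theorem card_selPair_top (hfin : Finite (D.selPair ⊤)) :
    Finite D.sel ∧
      Nat.card (D.selPair ⊤) = Nat.card D.sel * Nat.card (inv D.Ip : AddSubgroup G) := by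
  have htriv : ∀ ξ : D.sel, ∃ g : G, ∀ σ ∈ D.Ip, (ξ : Γ → G) σ = σ • g - g :=
    fun ξ => ξ.2.2.2.2
  choose g₀ hg₀ using htriv
  have hmk : ∀ (ξ : D.sel) (h : (inv D.Ip : AddSubgroup G)),
      D.IsSelPair ⊤ ((ξ : Γ → G), g₀ ξ + (h : G)) := fun ξ h =>
    ⟨ξ.2.1, fun _ => AddSubgroup.mem_top _, ξ.2.2.1, ξ.2.2.2.1, fun σ hσ => by
      show (ξ : Γ → G) σ = σ • (g₀ ξ + (h : G)) - (g₀ ξ + (h : G))
      rw [hg₀ ξ σ hσ, smul_add, h.2 σ hσ]
      abel⟩
  let e : D.selPair ⊤ ≃ D.sel × (inv D.Ip : AddSubgroup G) :=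
    { toFun := fun x => (D.Main_toSel x, ⟨x.1.2 - g₀ (D.Main_toSel x), fun σ hσ => by
        have h1 : x.1.1 σ = σ • x.1.2 - x.1.2 := x.2.2.2.2.2 σ hσ
        have h2 : x.1.1 σ = σ • g₀ (D.Main_toSel x) - g₀ (D.Main_toSel x) :=
          hg₀ (D.Main_toSel x) σ hσ
        rw [smul_sub]
        have h3 : σ • x.1.2 - x.1.2 = σ • g₀ (D.Main_toSel x) - g₀ (D.Main_toSel x) := by
          rw [← h1, ← h2]
        have h4 : σ • x.1.2 - σ • g₀ (D.Main_toSel x) - (x.1.2 - g₀ (D.Main_toSel x)) =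
            (σ • x.1.2 - x.1.2) - (σ • g₀ (D.Main_toSel x) - g₀ (D.Main_toSel x)) := by abel
        exact sub_eq_zero.1 (by rw [h4, h3, sub_self])⟩)
      invFun := fun y => ⟨((y.1 : Γ → G), g₀ y.1 + (y.2 : G)), hmk y.1 y.2⟩
      left_inv := fun x => by
        refine Subtype.ext (Prod.ext rfl ?_)
        show g₀ (D.Main_toSel x) + (x.1.2 - g₀ (D.Main_toSel x)) = x.1.2
        abel
      right_inv := fun y => by
        refine Prod.ext rfl (Subtype.ext ?_)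
        show g₀ y.1 + (y.2 : G) - g₀ y.1 = (y.2 : G)
        abel }
  refine ⟨Finite.of_surjective (fun x => (e x).1) fun ξ => ⟨e.symm (ξ, 0), by simp⟩, ?_⟩
  rw [Nat.card_congr e, Nat.card_prod]

/-- Ma5 = MAIN THEOREM (cocycle form):
`|Z_Sel(G)| * |G^{Ip}| ≤ |G| * |B'| * |M|`. -/
theorem card_sel_le (hl : l.Prime) (hF : D.Filt ⊤) :
    Finite D.sel ∧
      Nat.card D.sel * Nat.card (inv D.Ip : AddSubgroup G) ≤
        Nat.card G * Nat.card D.BB * Nat.card D.M := by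
  obtain ⟨hfin, hle⟩ := D.card_selPair_le hl hF
  obtain ⟨hfin', hcard⟩ := D.card_selPair_top hfin
  refine ⟨hfin', ?_⟩
  have hA : D.AA ⊤ = ⊤ := by
    ext g
    exact ⟨fun _ => AddSubgroup.mem_top _, fun _ σ _ => AddSubgroup.mem_top _⟩
  have hb : D.bound ⊤ = Nat.card G * Nat.card D.BB * Nat.card D.M := by
    unfold bound
    rw [inf_top_eq, top_inf_eq, hA, AddSubgroup.card_top]
  rw [← hcard, ← hb]
  exact hle

end Setup

end Fermat.Agent.S15.Coh
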