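/-
S15-COH: the main corollary (uniform exponent for Selmer classes), Ma6, Ma7.
-/
import Fermat.Agent.S15.Coh.Main

set_option autoImplicit false

namespace Fermat.Agent.S15.Coh

variable {Γ : Type*} [Group Γ] [TopologicalSpace Γ] {l m : ℕ}
  {G : Type*} [AddCommGroup G] [DistribMulAction Γ G] [Module (ZMod m) G]

omit [TopologicalSpace Γ] in
/-- auxiliary: `dd` as an additive map. -/
def cor_ddHom : G →+ (Γ → G) := AddMonoidHom.mk' dd Setup.dd_add

omit [TopologicalSpace Γ] in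
theorem cor_ker_ddHom : (cor_ddHom (Γ := Γ) (G := G)).ker = inv (⊤ : Subgroup Γ) := by
  ext g
  rw [AddMonoidHom.mem_ker]
  constructor
  · intro h σ _
    have h1 := congrFun h σ
    exact sub_eq_zero.1 h1
  · intro h
    funext σ
    exact sub_eq_zero.2 (h σ (Subgroup.mem_top σ))

namespace Setup

variable (D : Setup Γ G l m) [NeZero m] [Finite G]

/-- Ma6: coboundaries are Selmer cocycles, and there are `|G| / |G^Γ|` of them. -/
theorem card_cob (hU : ∀ σ ∈ D.U, ∀ g : G, σ • g = g) :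
    (∀ g : G, (dd g : Γ → G) ∈ D.sel) ∧
      Nat.card (Set.range (dd : G → Γ → G)) * Nat.card (inv (⊤ : Subgroup Γ) : AddSubgroup G) =
        Nat.card G := by
  refine ⟨fun g => ⟨⟨(D.cont g).comp fun x => x - g, fun σ τ => ?_⟩, fun σ hσ => ?_,
    fun σ hσ => D.Il_quot σ hσ g, g, fun σ _ => rfl⟩, ?_⟩
  · unfold dd
    rw [mul_smul, smul_sub]
    abel
  · unfold dd
    rw [hU σ hσ g, sub_self]
  · have h1 : Nat.card (Set.range (dd : G → Γ → G)) = (cor_ddHom (Γ := Γ) (G := G)).ker.index := by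
      rw [AddSubgroup.index_ker]
      rfl
    rw [h1, cor_ker_ddHom]
    exact AddSubgroup.index_mul_card _

/-- Ma7 = MAIN COROLLARY (the form used by WIRE): a uniform exponent for the Selmer classes. -/
theorem exists_dd_eq (hl : l.Prime) {r : ℕ} (hm : m = l ^ r) (hF : D.Filt ⊤)
    (hU : ∀ σ ∈ D.U, ∀ g : G, σ • g = g) {b : ℕ}
    (hb : Nat.card (inv (⊤ : Subgroup Γ) : AddSubgroup G) * Nat.card D.BB * Nat.card D.M ≤
      l ^ b * Nat.card (inv D.Ip : AddSubgroup G))
    {ξ : Γ → G} (hξ : D.IsSel ξ) :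
    ∃ g : G, ∀ σ, l ^ b • ξ σ = σ • g - g := by
  obtain ⟨hfin, h1⟩ := D.card_sel_le hl hF
  obtain ⟨hcob, h2⟩ := D.card_cob hU
  have hle : (cor_ddHom (Γ := Γ) (G := G)).range ≤ D.sel := by
    rintro _ ⟨g, rfl⟩
    exact hcob g
  have hcB : Nat.card ((cor_ddHom (Γ := Γ) (G := G)).range.addSubgroupOf D.sel)
      = Nat.card (Set.range (dd : G → Γ → G)) :=
    Nat.card_congr (AddSubgroup.addSubgroupOfEquivOfLe hle).toEquiv
  have h3 := AddSubgroup.card_mul_index ((cor_ddHom (Γ := Γ) (G := G)).range.addSubgroupOf D.sel)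
  rw [hcB] at h3
  have hi : 0 < Nat.card (inv D.Ip : AddSubgroup G) := Nat.card_pos
  have hc : 0 < Nat.card (Set.range (dd : G → Γ → G)) := by
    have : Nonempty (Set.range (dd : G → Γ → G)) := ⟨⟨_, 0, rfl⟩⟩
    have : Finite (Set.range (dd : G → Γ → G)) := Set.finite_range _
    exact Nat.card_pos
  -- the index is at most `l ^ b`
  have h4 : Nat.card D.sel ≤ Nat.card (Set.range (dd : G → Γ → G)) * l ^ b := by
    refine Nat.le_of_mul_le_mul_right ?_ hi
    calc Nat.card D.sel * Nat.card (inv D.Ip : AddSubgroup G)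
        ≤ Nat.card G * Nat.card D.BB * Nat.card D.M := h1
      _ = Nat.card (Set.range (dd : G → Γ → G)) *
          (Nat.card (inv (⊤ : Subgroup Γ) : AddSubgroup G) * Nat.card D.BB * Nat.card D.M) := by
          rw [← h2]
          ring
      _ ≤ Nat.card (Set.range (dd : G → Γ → G)) *
          (l ^ b * Nat.card (inv D.Ip : AddSubgroup G)) := Nat.mul_le_mul_left _ hb
      _ = Nat.card (Set.range (dd : G → Γ → G)) * l ^ b *
          Nat.card (inv D.Ip : AddSubgroup G) := by ring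
  have h5 : ((cor_ddHom (Γ := Γ) (G := G)).range.addSubgroupOf D.sel).index ≤ l ^ b := by
    refine Nat.le_of_mul_le_mul_left ?_ hc
    rw [h3]
    exact h4
  -- the class of `ξ`
  set q : D.sel ⧸ (cor_ddHom (Γ := Γ) (G := G)).range.addSubgroupOf D.sel :=
    QuotientAddGroup.mk (⟨ξ, hξ⟩ : D.sel) with hq
  have hq1 : l ^ r • q = 0 := by
    rw [hq, ← QuotientAddGroup.mk_nsmul]
    have h0 : l ^ r • (⟨ξ, hξ⟩ : D.sel) = 0 := by
      apply Subtype.ext
      funext σ
      show l ^ r • ξ σ = 0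
      rw [← hm]
      exact Dual_nsmul_eq_zero (m := m) (ξ σ)
    rw [h0]
    rfl
  obtain ⟨k, -, hk⟩ := (Nat.dvd_prime_pow hl).1 (addOrderOf_dvd_of_nsmul_eq_zero hq1)
  have hq2 : addOrderOf q ≤ l ^ b := by
    refine le_trans (Nat.le_of_dvd ?_ (addOrderOf_dvd_natCard q)) h5
    exact Nat.card_pos
  rw [hk] at hq2
  have hkb : k ≤ b := (Nat.pow_le_pow_iff_right hl.one_lt).1 hq2
  have hq3 : l ^ b • q = 0 := by
    rw [← addOrderOf_dvd_iff_nsmul_eq_zero, hk]
    exact pow_dvd_pow l hkb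
  rw [hq, ← QuotientAddGroup.mk_nsmul, QuotientAddGroup.eq_zero_iff,
    AddSubgroup.mem_addSubgroupOf] at hq3
  obtain ⟨g, hg⟩ := hq3
  refine ⟨g, fun σ => ?_⟩
  exact (congrFun hg σ).symm

end Setup

end Fermat.Agent.S15.Coh
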