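/-
S15-COH, version 2 of the count: the local condition at `p` is "`ξ(Ip) ⊆ W`" (instead of
"`ξ` is a coboundary on `Ip`").  `W ≤ G` is a subgroup on which `Ip` acts trivially, `τ ∈ Ip` an
element such that a continuous homomorphism `Ip → ℤ/m` vanishing at `τ` vanishes ((TI)).
Result: `|Z_Sel| ≤ |W| |B'| |M|`.
-/
import Fermat.Agent.S15.Coh.Step
import Fermat.Agent.S15.Coh.Cor

set_option autoImplicit false

namespace Fermat.Agent.S15.Coh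

variable {Γ : Type*} [Group Γ] [TopologicalSpace Γ] {l m : ℕ}
  {G : Type*} [AddCommGroup G] [DistribMulAction Γ G] [Module (ZMod m) G]

/-- the data at `p` -/
structure PData (D : Setup Γ G l m) where
  W : AddSubgroup G
  τ : Γ
  τ_mem : τ ∈ D.Ip
  Ip_W : ∀ σ ∈ D.Ip, ∀ w ∈ W, σ • w = w
  TI : ∀ c : Γ → ZMod m, IsLocallyConstant (fun σ : D.Ip => c σ) →
    (∀ σ ∈ D.Ip, ∀ σ' ∈ D.Ip, c (σ * σ') = c σ + c σ') → c τ = 0 → ∀ σ ∈ D.Ip, c σ = 0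

namespace PData

variable {D : Setup Γ G l m} (P : PData D)

/-- Selmer cocycles with values in `H` -/
def IsSelW (H : AddSubgroup G) (ξ : Γ → G) : Prop :=
  IsCoc ξ ∧ (∀ σ, ξ σ ∈ H) ∧ (∀ σ ∈ D.U, ξ σ = 0) ∧ (∀ σ ∈ D.Il, ξ σ ∈ D.M) ∧
    ∀ σ ∈ D.Ip, ξ σ ∈ P.W

/-- the group of Selmer cocycles with values in `H` -/
def selW (H : AddSubgroup G) : AddSubgroup (Γ → G) where
  carrier := {ξ | P.IsSelW H ξ}
  zero_mem' := ⟨isCoc_zero, fun _ => H.zero_mem, fun _ _ => rfl, fun _ _ => D.M.zero_mem,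
    fun _ _ => P.W.zero_mem⟩
  add_mem' := fun {a b} ha hb =>
    ⟨ha.1.add hb.1, fun σ => H.add_mem (ha.2.1 σ) (hb.2.1 σ),
      fun σ hσ => by simp [ha.2.2.1 σ hσ, hb.2.2.1 σ hσ],
      fun σ hσ => D.M.add_mem (ha.2.2.2.1 σ hσ) (hb.2.2.2.1 σ hσ),
      fun σ hσ => P.W.add_mem (ha.2.2.2.2 σ hσ) (hb.2.2.2.2 σ hσ)⟩
  neg_mem' := fun {a} ha =>
    ⟨ha.1.neg, fun σ => H.neg_mem (ha.2.1 σ),
      fun σ hσ => by simp [ha.2.2.1 σ hσ],
      fun σ hσ => D.M.neg_mem (ha.2.2.2.1 σ hσ),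
      fun σ hσ => P.W.neg_mem (ha.2.2.2.2 σ hσ)⟩

variable [NeZero m] [Finite G]

/-- the quantity bounding `|S(H)|` -/
noncomputable def boundW (H : AddSubgroup G) : ℕ :=
  Nat.card (P.W ⊓ H : AddSubgroup G) * Nat.card (D.BB ⊓ H : AddSubgroup G) *
    Nat.card (H ⊓ D.M : AddSubgroup G)

theorem selW_map_mem {H : AddSubgroup G} {ξ : Γ → G} (hx : ξ ∈ P.selW H) :
    (ξ P.τ, D.val ξ) ∈ (P.W ⊓ H).prod (D.BB ⊓ H) := by
  obtain ⟨hcoc, hH, hU, hIl, hIp⟩ := hx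
  have hloc : D.IsLocCoc ξ := D.isLocCoc_of_isCoc hcoc hIl
  refine AddSubgroup.mem_prod.mpr ⟨⟨hIp _ P.τ_mem, hH _⟩,
    ⟨?_, D.val_mem hloc H (fun σ _ => hH σ)⟩⟩
  refine D.mem_BB.mpr ⟨D.val_mem hloc D.M hIl, D.χ D.φ • ξ D.φ, ?_⟩
  rw [ZMod.map_smul, D.valD_apply, D.val_frob hcoc hIl]

theorem selW_map_add {H : AddSubgroup G} {ξ ξ' : Γ → G} (hx : ξ ∈ P.selW H)
    (hx' : ξ' ∈ P.selW H) :
    ((ξ + ξ') P.τ, D.val (ξ + ξ')) = (ξ P.τ, D.val ξ) + (ξ' P.τ, D.val ξ') := by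
  have hloc : D.IsLocCoc ξ := D.isLocCoc_of_isCoc hx.1 hx.2.2.2.1
  have hloc' : D.IsLocCoc ξ' := D.isLocCoc_of_isCoc hx'.1 hx'.2.2.2.1
  rw [D.val_add hloc hloc', Prod.mk_add_mk, Pi.add_apply]

omit [NeZero m] [Finite G] in
theorem lam_comp_propsW {H' H : AddSubgroup G} (lam : G →+ ZMod m)
    (h1 : ∀ h ∈ H, lam h = 0 ↔ h ∈ H') (h2 : ∀ h ∈ H, l • lam h = 0)
    {ξ : Γ → G} (hx : ξ ∈ P.selW H) (hxA : ξ P.τ ∈ H') :
    IsLocallyConstant (fun σ => lam (ξ σ)) ∧ (∀ σ, l • lam (ξ σ) = 0) ∧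
      (∀ σ ∈ D.Ip, lam (ξ σ) = 0) ∧ (∀ σ ∈ D.U, lam (ξ σ) = 0) := by
  obtain ⟨hcoc, hH, hU, hIl, hIp⟩ := hx
  have hlc : IsLocallyConstant (fun σ => lam (ξ σ)) := hcoc.1.comp lam
  refine ⟨hlc, fun σ => h2 _ (hH σ), ?_, fun σ hσ => ?_⟩
  · refine P.TI (fun σ => lam (ξ σ)) (hlc.comp_continuous continuous_subtype_val)
      (fun σ hσ σ' hσ' => ?_) ((h1 _ (hH _)).2 hxA)
    show lam (ξ (σ * σ')) = lam (ξ σ) + lam (ξ σ')
    rw [hcoc.2 σ σ', P.Ip_W σ hσ _ (hIp σ' hσ'), map_add]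
  · rw [hU σ hσ, map_zero]

theorem lam_comp_eq_zero_of_etW {H' H : AddSubgroup G} (hS : D.Step H' H) (het : H ⊓ D.M ≤ H')
    (lam : G →+ ZMod m) (h1 : ∀ h ∈ H, lam h = 0 ↔ h ∈ H') (h2 : ∀ h ∈ H, l • lam h = 0)
    {ξ : Γ → G} (hx : ξ ∈ P.selW H) (hxA : ξ P.τ ∈ H') :
    (fun σ => lam (ξ σ)) = 0 := by
  obtain ⟨p1, p2, p3, p4⟩ := P.lam_comp_propsW lam h1 h2 hx hxA
  obtain ⟨hcoc, hH, -, hM, -⟩ := hx
  funext σ
  refine D.B1 (fun σ => lam (ξ σ)) p1 (fun σ τ => ?_) p2 p3 (fun σ hσ => ?_) p4 σ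
  · show lam (ξ (σ * τ)) = lam (ξ σ) + lam (ξ τ)
    rw [hcoc.2 σ τ, map_add, D.lam_smul_of_et hS het lam h1 h2 σ (hH τ)]
  · exact (h1 _ (hH σ)).2 (het ⟨hH σ, hM σ hσ⟩)

theorem lam_comp_isStrict_of_muW {H' H : AddSubgroup G} (hS : D.Step H' H)
    (hmu : ¬ H ⊓ D.M ≤ H')
    (lam : G →+ ZMod m) (h1 : ∀ h ∈ H, lam h = 0 ↔ h ∈ H') (h2 : ∀ h ∈ H, l • lam h = 0)
    {ξ : Γ → G} (hx : ξ ∈ P.selW H) (hxA : ξ P.τ ∈ H') (hxB : D.val ξ ∈ H') :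
    IsStrict l D.χ D.Ip D.U D.v (fun σ => lam (ξ σ)) := by
  obtain ⟨p1, p2, p3, p4⟩ := P.lam_comp_propsW lam h1 h2 hx hxA
  obtain ⟨hcoc, hH, -, hM, -⟩ := hx
  refine ⟨p1, fun σ τ => ?_, p2, p3, p4, ?_⟩
  · show lam (ξ (σ * τ)) = lam (ξ σ) + D.χ σ * lam (ξ τ)
    rw [hcoc.2 σ τ, map_add, D.lam_smul_of_mu hS hmu lam h1 h2 σ (hH τ)]
  · rw [← D.val_spec (D.isLocCoc_of_isCoc hcoc hM) lam]
    exact (h1 _ (hS.le hxB)).2 hxB

omit [NeZero m] [Finite G] in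
theorem mem_selW_of_lam_comp_eq_zero {H' H : AddSubgroup G}
    (lam : G →+ ZMod m) (h1 : ∀ h ∈ H, lam h = 0 ↔ h ∈ H')
    {ξ : Γ → G} (hx : ξ ∈ P.selW H) (h0 : (fun σ => lam (ξ σ)) = 0) :
    ξ ∈ P.selW H' := by
  obtain ⟨hcoc, hH, hU, hIl, hIp⟩ := hx
  exact ⟨hcoc, fun σ => (h1 _ (hH σ)).mp (congrFun h0 σ), hU, hIl, hIp⟩

open Classical in
theorem step_countW (hl : l.Prime) {H' H : AddSubgroup G} (hS : D.Step H' H)
    (hfin : Finite (P.selW H')) :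
    Finite (P.selW H) ∧
      Nat.card (P.selW H) *
          (Nat.card (P.W ⊓ H' : AddSubgroup G) * Nat.card (D.BB ⊓ H' : AddSubgroup G)) ≤
        (Nat.card (P.W ⊓ H : AddSubgroup G) * Nat.card (D.BB ⊓ H : AddSubgroup G)) *
          ((if H ⊓ D.M ≤ H' then 1 else l) * Nat.card (P.selW H')) := by
  obtain ⟨lam, h1, h2⟩ := D.exists_lambda hl hS
  have hA : (P.W ⊓ H').prod (D.BB ⊓ H') ≤ (P.W ⊓ H).prod (D.BB ⊓ H) :=
    AddSubgroup.prod_mono (inf_le_inf_left _ hS.le) (inf_le_inf_left _ hS.le)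
  have hcard : ∀ A B : AddSubgroup G, Nat.card (A.prod B) = Nat.card A * Nat.card B :=
    fun A B => by
      rw [Nat.card_congr (AddSubgroup.prodEquiv A B).toEquiv, Nat.card_prod]
  by_cases het : H ⊓ D.M ≤ H'
  · have key := count_step (P.selW H) (P.selW H')
      (fun ξ : Γ → G => ((ξ P.τ, D.val ξ) : G × G))
      (fun ξ : Γ → G => (fun s => lam (ξ s) : Γ → ZMod m))
      (fun s hs t ht => P.selW_map_add hs ht)
      (fun s _ t _ => by funext σ; simp)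
      ((P.W ⊓ H).prod (D.BB ⊓ H)) ((P.W ⊓ H').prod (D.BB ⊓ H')) hA
      (fun s hs => P.selW_map_mem hs)
      {0} (Set.finite_singleton 0)
      (fun s hs hs' => P.lam_comp_eq_zero_of_etW hS het lam h1 h2 hs hs'.1.2)
      (fun s hs _ h0 => P.mem_selW_of_lam_comp_eq_zero lam h1 hs h0)
    refine ⟨key.1, ?_⟩
    have h := key.2
    rw [hcard, hcard, Set.ncard_singleton] at h
    rw [if_pos het]
    exact h
  · have key := count_step (P.selW H) (P.selW H')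
      (fun ξ : Γ → G => ((ξ P.τ, D.val ξ) : G × G))
      (fun ξ : Γ → G => (fun s => lam (ξ s) : Γ → ZMod m))
      (fun s hs t ht => P.selW_map_add hs ht)
      (fun s _ t _ => by funext σ; simp)
      ((P.W ⊓ H).prod (D.BB ⊓ H)) ((P.W ⊓ H').prod (D.BB ⊓ H')) hA
      (fun s hs => P.selW_map_mem hs)
      {c | IsStrict l D.χ D.Ip D.U D.v c} D.B2.1
      (fun s hs hs' => P.lam_comp_isStrict_of_muW hS het lam h1 h2 hs hs'.1.2 hs'.2.2)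
      (fun s hs _ h0 => P.mem_selW_of_lam_comp_eq_zero lam h1 hs h0)
    refine ⟨key.1, ?_⟩
    have h := key.2
    rw [hcard, hcard] at h
    rw [if_neg het]
    exact h.trans (Nat.mul_le_mul_left _ (Nat.mul_le_mul_right _ D.B2.2))

theorem step_mainW (hl : l.Prime) {H' H : AddSubgroup G} (hS : D.Step H' H)
    (hfin : Finite (P.selW H')) (hle : Nat.card (P.selW H') ≤ P.boundW H') :
    Finite (P.selW H) ∧ Nat.card (P.selW H) ≤ P.boundW H := by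
  classical
  obtain ⟨hF, hc⟩ := P.step_countW hl hS hfin
  refine ⟨hF, ?_⟩
  have hpos : 0 < Nat.card (P.W ⊓ H' : AddSubgroup G) * Nat.card (D.BB ⊓ H' : AddSubgroup G) :=
    Nat.mul_pos Nat.card_pos Nat.card_pos
  have hε : (if H ⊓ D.M ≤ H' then 1 else l) * Nat.card (H' ⊓ D.M : AddSubgroup G) =
      Nat.card (H ⊓ D.M : AddSubgroup G) := by
    by_cases het : H ⊓ D.M ≤ H'
    · rw [if_pos het, one_mul, (D.inf_eq_of_et hS het).1]
    · rw [if_neg het, D.card_inf_M_of_mu hl hS het]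
  refine Nat.le_of_mul_le_mul_right (hc.trans ?_) hpos
  unfold boundW at hle ⊢
  rw [← hε]
  calc (Nat.card (P.W ⊓ H : AddSubgroup G) * Nat.card (D.BB ⊓ H : AddSubgroup G)) *
          ((if H ⊓ D.M ≤ H' then 1 else l) * Nat.card (P.selW H'))
      ≤ (Nat.card (P.W ⊓ H : AddSubgroup G) * Nat.card (D.BB ⊓ H : AddSubgroup G)) *
          ((if H ⊓ D.M ≤ H' then 1 else l) *
            (Nat.card (P.W ⊓ H' : AddSubgroup G) * Nat.card (D.BB ⊓ H' : AddSubgroup G) *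
              Nat.card (H' ⊓ D.M : AddSubgroup G))) :=
        Nat.mul_le_mul_left _ (Nat.mul_le_mul_left _ hle)
    _ = _ := by ring

theorem selW_bot : Finite (P.selW ⊥) ∧ Nat.card (P.selW ⊥) ≤ P.boundW ⊥ := by
  have hsub : Subsingleton (P.selW ⊥) := ⟨fun x y => Subtype.ext (by
    funext σ
    rw [(AddSubgroup.mem_bot).1 (x.2.2.1 σ), (AddSubgroup.mem_bot).1 (y.2.2.1 σ)])⟩
  refine ⟨inferInstance, ?_⟩
  have hb : P.boundW ⊥ = 1 := by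
    unfold boundW
    rw [inf_bot_eq, inf_bot_eq, bot_inf_eq, AddSubgroup.card_bot]
  rw [hb]
  exact Finite.card_le_one_iff_subsingleton.2 hsub

theorem card_selW_le (hl : l.Prime) {H : AddSubgroup G} (hF : D.Filt H) :
    Finite (P.selW H) ∧ Nat.card (P.selW H) ≤ P.boundW H := by
  induction hF with
  | bot => exact P.selW_bot
  | step _ hS ih => exact P.step_mainW hl hS ih.1 ih.2

/-- MAIN THEOREM, version 2 (cocycle form): `|Z_Sel(G)| ≤ |W| * |B'| * |M|`. -/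
theorem card_selW_top_le (hl : l.Prime) (hF : D.Filt ⊤) :
    Finite (P.selW ⊤) ∧
      Nat.card (P.selW ⊤) ≤ Nat.card P.W * Nat.card D.BB * Nat.card D.M := by
  obtain ⟨hfin, hle⟩ := P.card_selW_le hl hF
  refine ⟨hfin, ?_⟩
  have hb : P.boundW ⊤ = Nat.card P.W * Nat.card D.BB * Nat.card D.M := by
    unfold boundW
    rw [inf_top_eq, inf_top_eq, top_inf_eq]
  rw [← hb]
  exact hle

/-- MAIN COROLLARY, version 2: a uniform exponent for the Selmer classes. -/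
theorem exists_dd_eqW (hl : l.Prime) {r : ℕ} (hm : m = l ^ r) (hF : D.Filt ⊤)
    (hU : ∀ σ ∈ D.U, ∀ g : G, σ • g = g) (hW : ∀ σ ∈ D.Ip, ∀ g : G, σ • g - g ∈ P.W) {b : ℕ}
    (hb : Nat.card (inv (⊤ : Subgroup Γ) : AddSubgroup G) *
      (Nat.card P.W * Nat.card D.BB * Nat.card D.M) ≤ l ^ b * Nat.card G)
    {ξ : Γ → G} (hξ : P.IsSelW ⊤ ξ) :
    ∃ g : G, ∀ σ, l ^ b • ξ σ = σ • g - g := by
  obtain ⟨hfin, h1⟩ := P.card_selW_top_le hl hF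
  obtain ⟨hcob, h2⟩ := D.card_cob hU
  have hle : (cor_ddHom (Γ := Γ) (G := G)).range ≤ P.selW ⊤ := by
    rintro _ ⟨g, rfl⟩
    obtain ⟨c1, c2, c3, -⟩ := hcob g
    exact ⟨c1, fun _ => AddSubgroup.mem_top _, c2, c3, fun σ hσ => hW σ hσ g⟩
  have hcB : Nat.card ((cor_ddHom (Γ := Γ) (G := G)).range.addSubgroupOf (P.selW ⊤))
      = Nat.card (Set.range (dd : G → Γ → G)) :=
    Nat.card_congr (AddSubgroup.addSubgroupOfEquivOfLe hle).toEquiv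
  have h3 := AddSubgroup.card_mul_index
    ((cor_ddHom (Γ := Γ) (G := G)).range.addSubgroupOf (P.selW ⊤))
  rw [hcB] at h3
  have hi : 0 < Nat.card (inv (⊤ : Subgroup Γ) : AddSubgroup G) := Nat.card_pos
  have hc : 0 < Nat.card (Set.range (dd : G → Γ → G)) := by
    have : Nonempty (Set.range (dd : G → Γ → G)) := ⟨⟨_, 0, rfl⟩⟩
    have : Finite (Set.range (dd : G → Γ → G)) := Set.finite_range _
    exact Nat.card_pos
  have h4 : Nat.card (P.selW ⊤) ≤ Nat.card (Set.range (dd : G → Γ → G)) * l ^ b := by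
    refine Nat.le_of_mul_le_mul_left ?_ hi
    calc Nat.card (inv (⊤ : Subgroup Γ) : AddSubgroup G) * Nat.card (P.selW ⊤)
        ≤ Nat.card (inv (⊤ : Subgroup Γ) : AddSubgroup G) *
          (Nat.card P.W * Nat.card D.BB * Nat.card D.M) := Nat.mul_le_mul_left _ h1
      _ ≤ l ^ b * Nat.card G := hb
      _ = Nat.card (inv (⊤ : Subgroup Γ) : AddSubgroup G) *
          (Nat.card (Set.range (dd : G → Γ → G)) * l ^ b) := by
          rw [← h2]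
          ring
  have h5 : ((cor_ddHom (Γ := Γ) (G := G)).range.addSubgroupOf (P.selW ⊤)).index ≤ l ^ b := by
    refine Nat.le_of_mul_le_mul_left ?_ hc
    rw [h3]
    exact h4
  set q : P.selW ⊤ ⧸ (cor_ddHom (Γ := Γ) (G := G)).range.addSubgroupOf (P.selW ⊤) :=
    QuotientAddGroup.mk (⟨ξ, hξ⟩ : P.selW ⊤) with hq
  have hq1 : l ^ r • q = 0 := by
    rw [hq, ← QuotientAddGroup.mk_nsmul]
    have h0 : l ^ r • (⟨ξ, hξ⟩ : P.selW ⊤) = 0 := by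
      apply Subtype.ext
      funext σ
      show l ^ r • ξ σ = 0
      rw [← hm]
      exact Dual_nsmul_eq_zero (m := m) (ξ σ)
    rw [h0]
    rfl
  obtain ⟨k, -, hk⟩ := (Nat.dvd_prime_pow hl).1 (addOrderOf_dvd_of_nsmul_eq_zero hq1)
  have hq2 : addOrderOf q ≤ l ^ b := by
    refine le_trans (Nat.le_of_dvd ?_ (addOrderOf_dvd_natCard q)) h5
    exact Nat.card_pos
  rw [hk] at hq2
  have hkb : k ≤ b := (Nat.pow_le_pow_iff_right hl.one_lt).1 hq2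
  have hq3 : l ^ b • q = 0 := by
    rw [← addOrderOf_dvd_iff_nsmul_eq_zero, hk]
    exact pow_dvd_pow l hkb
  rw [hq, ← QuotientAddGroup.mk_nsmul, QuotientAddGroup.eq_zero_iff,
    AddSubgroup.mem_addSubgroupOf] at hq3
  obtain ⟨g, hg⟩ := hq3
  refine ⟨g, fun σ => ?_⟩
  exact (congrFun hg σ).symm

end PData

end Fermat.Agent.S15.Coh
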