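/-
S15 ABS-B: MAIN THEOREM. Clean data => a uniform exponent `l^b` killing all Selmer-type classes
at all levels `r`.
-/
import Fermat.Agent.S15.Coh.CleanA
import Fermat.Agent.S15.Coh.CleanB
import Fermat.Agent.S15.Coh.WMain

set_option autoImplicit false

namespace Fermat.Agent.S15.Coh

variable {Γ : Type*} [Group Γ] [TopologicalSpace Γ] {l : ℕ}
  {𝔾 : Type*} [AddCommGroup 𝔾] [DistribMulAction Γ 𝔾] {T : ArithTower Γ l}

namespace Clean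

/-- CM1: the numerical hypothesis of `PData.exists_dd_eqW` holds with `b` independent of `r`. -/
theorem numerics [NeZero l] (C : Clean T 𝔾) (r : ℕ) [Finite (lev 𝔾 l r)] {b : ℕ}
    (hb : {x : 𝔾 | ∀ σ : Γ, σ • x = x}.ncard *
      ({x : 𝔾 | C.u (C.u x) = x}.ncard * {x : 𝔾 | C.u (C.u x) = x}.ncard) ≤ l ^ b) :
    Nat.card (inv (⊤ : Subgroup Γ) : AddSubgroup (lev 𝔾 l r)) *
        (Nat.card (C.W.addSubgroupOf (lev 𝔾 l r)) * Nat.card (C.setup r).BB *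
          Nat.card (C.setup r).M) ≤
      l ^ (b + C.c) * Nat.card (lev 𝔾 l r) := by
  have h1 : Nat.card (inv (⊤ : Subgroup Γ) : AddSubgroup (lev 𝔾 l r)) ≤
      {x : 𝔾 | ∀ σ : Γ, σ • x = x}.ncard := card_inv_top_le r C.fin_inv
  have h2 := C.card_BB_le r
  have h3 : Nat.card (C.setup r).M * Nat.card (C.W.addSubgroupOf (lev 𝔾 l r)) ≤
      l ^ C.c * Nat.card (lev 𝔾 l r) := by
    rw [C.card_setup_M r, card_addSubgroupOf_lev r C.W]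
    exact C.card_MW r
  calc Nat.card (inv (⊤ : Subgroup Γ) : AddSubgroup (lev 𝔾 l r)) *
        (Nat.card (C.W.addSubgroupOf (lev 𝔾 l r)) * Nat.card (C.setup r).BB *
          Nat.card (C.setup r).M)
      = (Nat.card (inv (⊤ : Subgroup Γ) : AddSubgroup (lev 𝔾 l r)) * Nat.card (C.setup r).BB) *
        (Nat.card (C.setup r).M * Nat.card (C.W.addSubgroupOf (lev 𝔾 l r))) := by ring
    _ ≤ l ^ b * (l ^ C.c * Nat.card (lev 𝔾 l r)) :=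
        Nat.mul_le_mul ((Nat.mul_le_mul h1 h2).trans hb) h3
    _ = l ^ (b + C.c) * Nat.card (lev 𝔾 l r) := by rw [pow_add]; ring

/-- the data at `p` on the level `r` -/
def pdata [NeZero l] (C : Clean T 𝔾) (r : ℕ) : PData (C.setup r) where
  W := C.W.addSubgroupOf (lev 𝔾 l r)
  τ := T.τ r
  τ_mem := T.τ_mem r
  Ip_W := fun σ hσ w hw => Subtype.ext (C.Ip_W σ hσ w.1 hw)
  TI := T.TI r

/-- CM3: level form of the main theorem. -/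
theorem main_level [NeZero l] (hl : l.Prime) (C : Clean T 𝔾) (r : ℕ) {b : ℕ}
    (hb : {x : 𝔾 | ∀ σ : Γ, σ • x = x}.ncard *
      ({x : 𝔾 | C.u (C.u x) = x}.ncard * {x : 𝔾 | C.u (C.u x) = x}.ncard) ≤ l ^ b)
    (ξ : Γ → lev 𝔾 l r) (hξ : IsCoc ξ) (hU : ∀ σ ∈ T.U, ξ σ = 0)
    (hIl : ∀ σ ∈ T.Il, (ξ σ : 𝔾) ∈ C.M) (hIp : ∀ σ ∈ T.Ip, (ξ σ : 𝔾) ∈ C.W) :
    ∃ g : lev 𝔾 l r, ∀ σ, l ^ (b + C.c) • ξ σ = σ • g - g := by
  have := C.fin r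
  exact (C.pdata r).exists_dd_eqW hl rfl (C.filt_top r)
    (fun σ hσ g => Subtype.ext (C.U_triv σ hσ g.1)) (fun σ hσ g => C.Ip_quot σ hσ g.1)
    (C.numerics r hb) ⟨hξ, fun _ => AddSubgroup.mem_top _, hU, hIl, hIp⟩

/-- CM4 = ABS-B. There is `b` such that for every level `r` and every continuous cocycle
`ξ : Γ → 𝔾[l^r]` which vanishes on `U`, has values in `M` on `Il` and values in `W` on `Ip`,
the cocycle `l^b ξ` is the coboundary of an element of `𝔾[l^r]`. -/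
theorem main (hl : l.Prime) (C : Clean T 𝔾) :
    ∃ b : ℕ, ∀ (r : ℕ) (ξ : Γ → 𝔾), IsCoc ξ → (∀ σ, l ^ r • ξ σ = 0) → (∀ σ ∈ T.U, ξ σ = 0) →
      (∀ σ ∈ T.Il, ξ σ ∈ C.M) → (∀ σ ∈ T.Ip, ξ σ ∈ C.W) →
      ∃ g : 𝔾, l ^ r • g = 0 ∧ ∀ σ, l ^ b • ξ σ = σ • g - g := by
  have : NeZero l := ⟨hl.ne_zero⟩
  obtain ⟨b0, hb0⟩ : ∃ b0 : ℕ, {x : 𝔾 | ∀ σ : Γ, σ • x = x}.ncard *
      ({x : 𝔾 | C.u (C.u x) = x}.ncard * {x : 𝔾 | C.u (C.u x) = x}.ncard) ≤ l ^ b0 :=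
    ⟨_, (Nat.lt_pow_self hl.one_lt).le⟩
  refine ⟨b0 + C.c, fun r ξ hξ hr hU hIl hIp => ?_⟩
  obtain ⟨g, hg⟩ := C.main_level hl r hb0 (fun σ => (⟨ξ σ, hr σ⟩ : lev 𝔾 l r))
    ⟨isLocallyConstant_lev r _ hξ.1, fun σ τ => Subtype.ext (hξ.2 σ τ)⟩
    (fun σ hσ => Subtype.ext (hU σ hσ)) hIl hIp
  exact ⟨g.1, g.2, fun σ => congrArg Subtype.val (hg σ)⟩

end Clean

end Fermat.Agent.S15.Coh
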